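/-
Program C (S55), package C8, leaf (SUB-RESINJ) (helper4): if `p ∤ [E : k]`, the kernel of the
restriction `H²(Gal(K/k), Kˣ) → H²(Gal(K/E), Kˣ)` is killed by an integer prime to `p`
(namely `[E : k]`, the index of `Gal(K/E)` in `Gal(K/k)`).
Statement verbatim: `Fermat.Agent.S55.H29.SubResInjStatement`.
-/
import Fermat.Agent.S55.H29.C8Hasse
import Fermat.Agent.S55.H80.ResIndex

set_option autoImplicit false

open CategoryTheory

noncomputable section

namespace Fermat.Agent.S55.H4

open Fermat.Agent.S55.H88

section Index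

variable (k E K : Type) [Field k] [Field E] [Field K] [Algebra k E] [Algebra E K] [Algebra k K]
  [IsScalarTower k E K]

/-- `H88.fixSubgroup k E K` is the fixing subgroup of the image of `E` in `K`. -/
theorem fixSubgroup_eq_fixingSubgroup :
    fixSubgroup k E K = (IsScalarTower.toAlgHom k E K).fieldRange.fixingSubgroup := by
  ext σ
  rw [mem_fixSubgroup_iff, IntermediateField.mem_fixingSubgroup_iff]
  constructor
  · rintro h x ⟨e, rfl⟩
    exact h e
  · intro h e
    exact h _ ⟨e, rfl⟩

/-- The index of `Gal(K/E)` in `Gal(K/k)` is `[E : k]`. -/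
theorem index_fixSubgroup [IsGalois k K] : (fixSubgroup k E K).index = Module.finrank k E := by
  rw [fixSubgroup_eq_fixingSubgroup, ← IntermediateField.finrank_eq_fixingSubgroup_index]
  exact (AlgEquiv.ofInjectiveField (IsScalarTower.toAlgHom k E K)).toLinearEquiv.finrank_eq.symm

end Index

/-- **Leaf (SUB-RESINJ)** of package C8. -/
theorem subResInjStatement : Fermat.Agent.S55.H29.SubResInjStatement := by
  intro k E K _ _ _ _ _ _ _ _ _ _ _ p hp hpE β hβ
  haveI : FiniteDimensional k K := Module.Finite.trans E K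
  haveI : Finite (K ≃ₐ[k] K) := inferInstance
  haveI : (fixSubgroup k E K).FiniteIndex := inferInstance
  refine ⟨(fixSubgroup k E K).index, ?_, ?_⟩
  · rw [index_fixSubgroup]
    exact ((Nat.Prime.coprime_iff_not_dvd hp).2 hpE).symm
  · exact Fermat.Agent.S55.H80.index_smul_eq_zero_of_res_eq_zero (Rep.ofAlgebraAutOnUnits k K)
      (fixSubgroup k E K) 2 (Or.inr rfl) β hβ

end Fermat.Agent.S55.H4
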