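/-
Program C (S55), package C8, leaf (CLASS-SYLOW) (helper4): if `p ∤ [K' : k]`, the restriction
`H²(Gal(K/k), C_K) → H²(Gal(K/K'), C_K)` is injective on the `p`-primary classes.
Statement verbatim: `Fermat.Agent.S55.H29.ClassSylowStatement`.

Proof: the change of presentation `H²(fixSubgroup k K' K, C_K) → H²(Gal(K/K'), C_K)` is an
isomorphism (`galToFix` is bijective, `classSubLin` is bijective), so the restriction to
`fixSubgroup k K' K` vanishes; its kernel is killed by the index `[K' : k]`.
-/
import Fermat.Agent.S55.H29.C8Cls
import Fermat.Agent.S55.H79.SubPres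
import Fermat.Agent.S55.H80.ResIndexCor
import Fermat.Agent.S55.H4.SubResInj

set_option autoImplicit false

open CategoryTheory groupCohomology Rep

noncomputable section

namespace Fermat.Agent.S55.H4

open Fermat.Agent.S55.H88 Fermat.Agent.S55.H29

section ClassPres

variable (k K L : Type) [Field k] [Field K] [Field L] [Algebra k K] [Algebra K L] [Algebra k L]
  [IsScalarTower k K L] [NumberField L]

theorem classSubLin_mk (x : ideleRep k L) :
    classSubLin k K L (Submodule.Quotient.mk x) = (ideleClassProj K L).hom ((ideleSub k K L).hom x) :=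
  rfl

theorem classSubLin_surjective : Function.Surjective (classSubLin k K L) := by
  intro y
  obtain ⟨x, rfl⟩ := Submodule.mkQ_surjective (idelePrincipal K L) y
  exact ⟨Submodule.Quotient.mk x, rfl⟩

theorem classSubLin_injective : Function.Injective (classSubLin k K L) := by
  rw [injective_iff_map_eq_zero]
  intro c hc
  obtain ⟨x, rfl⟩ := Submodule.mkQ_surjective (idelePrincipal k L) c
  have h1 : (ideleSub k K L).hom x ∈ idelePrincipal K L :=
    (Submodule.Quotient.mk_eq_zero (idelePrincipal K L)).mp hc
  obtain ⟨u, hu⟩ := h1
  refine (Submodule.Quotient.mk_eq_zero (idelePrincipal k L)).mpr ⟨u, ?_⟩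
  exact hu

/-- The class module of `L` in the two presentations, as a linear equivalence. -/
def classSubEquiv :
    (ideleClassRep K L).V ≃ₗ[ℤ]
      (Rep.res (fixSubgroup k K L).subtype (ideleClassRep k L)).V :=
  (LinearEquiv.ofBijective (classSubLin k K L)
    ⟨classSubLin_injective k K L, classSubLin_surjective k K L⟩).symm

theorem classSubEquiv_classSubLin (c : (ideleClassRep k L).V) :
    classSubEquiv k K L (classSubLin k K L c) = c :=
  (LinearEquiv.ofBijective (classSubLin k K L)
    ⟨classSubLin_injective k K L, classSubLin_surjective k K L⟩).symm_apply_apply c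

theorem classSubEquiv_comm (g : L ≃ₐ[K] L) :
    (classSubEquiv k K L).toLinearMap ∘ₗ (ideleClassRep K L).ρ g =
      (Rep.res (fixSubgroup k K L).subtype (ideleClassRep k L)).ρ
        (Fermat.Agent.S55.H79.galFixEquiv k K L g) ∘ₗ (classSubEquiv k K L).toLinearMap := by
  refine LinearMap.ext fun y => ?_
  obtain ⟨c, rfl⟩ := classSubLin_surjective k K L y
  have h := Rep.hom_comm_apply (classSub k K L) g c
  show classSubEquiv k K L ((ideleClassRep K L).ρ g (classSubLin k K L c))
    = (ideleClassRep k L).ρ (subGal k K L g) (classSubEquiv k K L (classSubLin k K L c))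
  rw [classSubEquiv_classSubLin]
  have h' : (ideleClassRep K L).ρ g (classSubLin k K L c)
      = classSubLin k K L ((ideleClassRep k L).ρ (subGal k K L g) c) := h.symm
  rw [h', classSubEquiv_classSubLin]

/-- `Hⁿ(Gal(L/K), C_L) ≅ Hⁿ(fixSubgroup k K L, C_L)`. -/
def classSubIso (n : ℕ) :
    groupCohomology (ideleClassRep K L) n ≅
      groupCohomology (Rep.res (fixSubgroup k K L).subtype (ideleClassRep k L)) n :=
  mapIso (Fermat.Agent.S55.H79.galFixEquiv k K L) (classSubEquiv k K L)
    (classSubEquiv_comm k K L) n

/-- The coefficient morphism of the change of presentation on `fixSubgroup k K L`. -/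
def classSubFix :
    Rep.res (galToFix k K L) (Rep.res (fixSubgroup k K L).subtype (ideleClassRep k L)) ⟶
      ideleClassRep K L :=
  classSub k K L

theorem map_galToFix_classSub (n : ℕ) :
    groupCohomology.map (galToFix k K L) (classSubFix k K L) n = (classSubIso k K L n).inv :=
  map_congr (MonoidHom.ext fun σ => rfl) (by
    refine LinearMap.ext fun x => ?_
    rfl) n

theorem map_galToFix_classSub_injective (n : ℕ) :
    Function.Injective (groupCohomology.map (galToFix k K L) (classSubFix k K L) n).hom := by
  rw [map_galToFix_classSub]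
  exact (ConcreteCategory.bijective_of_isIso (classSubIso k K L n).inv).1

/-- The restriction to `Gal(L/K)` factors through the restriction to `fixSubgroup k K L`. -/
theorem map_subGal_classSub (n : ℕ) (c : groupCohomology (ideleClassRep k L) n) :
    (groupCohomology.map (subGal k K L) (classSub k K L) n).hom c
      = (groupCohomology.map (galToFix k K L) (classSubFix k K L) n).hom
          ((groupCohomology.map (fixSubgroup k K L).subtype
            (𝟙 (Rep.res (fixSubgroup k K L).subtype (ideleClassRep k L))) n).hom c) := by
  have h := groupCohomology.map_comp (fixSubgroup k K L).subtype (galToFix k K L)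
    (𝟙 (Rep.res (fixSubgroup k K L).subtype (ideleClassRep k L))) (classSubFix k K L) n
  have h2 : groupCohomology.map (subGal k K L) (classSub k K L) n
      = groupCohomology.map ((fixSubgroup k K L).subtype.comp (galToFix k K L))
          ((Rep.resFunctor (galToFix k K L)).map
            (𝟙 (Rep.res (fixSubgroup k K L).subtype (ideleClassRep k L))) ≫ classSubFix k K L) n :=
    map_congr rfl (by
      refine LinearMap.ext fun x => ?_
      rfl) n
  rw [h2, h]
  rfl

end ClassPres

/-- **Leaf (CLASS-SYLOW)** of package C8. -/
theorem classSylowStatement : Fermat.Agent.S55.H29.ClassSylowStatement := by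
  intro k K' K _ _ _ _ _ _ _ _ _ _ _ p hp hpK c hc hres
  obtain ⟨j, hj⟩ := hc
  haveI : FiniteDimensional k K := Module.Finite.trans K' K
  haveI : Finite (K ≃ₐ[k] K) := inferInstance
  haveI : (fixSubgroup k K' K).FiniteIndex := inferInstance
  rw [map_subGal_classSub] at hres
  have h0 : (groupCohomology.map (galToFix k K' K) (classSubFix k K' K) 2).hom 0 = 0 := map_zero _
  have h1 : (groupCohomology.map (fixSubgroup k K' K).subtype
      (𝟙 (Rep.res (fixSubgroup k K' K).subtype (ideleClassRep k K))) 2).hom c = 0 :=
    map_galToFix_classSub_injective k K' K 2 (hres.trans h0.symm)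
  have h2 := Fermat.Agent.S55.H80.index_smul_eq_zero_of_res_eq_zero (ideleClassRep k K)
    (fixSubgroup k K' K) 2 (Or.inr rfl) c h1
  have hcop : Nat.Coprime (fixSubgroup k K' K).index (p ^ j) := by
    rw [index_fixSubgroup]
    exact Nat.Coprime.pow_right j ((Nat.Prime.coprime_iff_not_dvd hp).2 hpK).symm
  exact Fermat.Agent.S55.H80.eq_zero_of_coprime_nsmul hcop h2 hj

end Fermat.Agent.S55.H4
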