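import Mathlib
import Fermat.Agent.S55.H29.C8Cls
import Fermat.Agent.S55.H31.JinvRes
import Fermat.Agent.S55.H35.JinvIndep

/-!
# S55 / C8 (B4) leaf (J-RES), helper4

`jResStatement : H29.JResStatement` (verbatim, unconditional): restriction to `Gal(L/K)`
multiplies the local invariant of an idele class at a finite place `w` of `K` by the local degree
`[K_w : k_v]`, `v` the place of `k` below `w`.

Assembly of two landed tools:

* `H31.jinvAt_sub` — the embedding form of (J5): for every embedding `τ` of `L`,
  `jinvAt K q τ (res x) = [K_w : k_v] • jinvAt k q τ x`;
* `H35.jinv_eq_jinvAt` — the idele local invariant `H29.jinv k L v` may be computed at ANY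
  embedding of `L` above the place `v` (independence of the chosen place);

together with `H83.below_emb_rel` (the chosen embedding of the place below `w` is conjugate to the
restriction of the chosen embedding of `w`).
-/

set_option autoImplicit false

open CategoryTheory

noncomputable section

namespace Fermat.Agent.S55.H4

open Fermat.Agent.S55.H66 Fermat.Agent.S55.H88 Fermat.Agent.S55.H20

attribute [local instance] factOfPrimes

/-- **Leaf (J-RES)**: restriction to `Gal(L/K)` multiplies the local invariants of idele classes
by the local degrees. -/
theorem jResStatement : H29.JResStatement := by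
  intro k K L _ _ _ _ _ _ _ _ _ _ _ z w
  have : Normal K L := Normal.tower_top_of_normal k K L
  have hKL : (w.ext L).comp (algebraMap K L) = w.emb := FinPlace.ext_comp L w
  have h1 := H31.jinvAt_sub k K L w.1 (w.ext L) z
  rw [hKL] at h1
  have h2 : H29.jinv k L (w.below k) = H29.jinvAt k w.1 (w.ext L) := by
    refine H35.jinv_eq_jinvAt k L (w.below k) (w.ext L) ?_
    have h3 : (w.ext L).comp (algebraMap k L) = w.emb.comp (algebraMap k K) := by
      rw [← hKL, RingHom.comp_assoc, ← IsScalarTower.algebraMap_eq]
    obtain ⟨g, hg⟩ := (placeSetoid (w.1 : ℕ) k).symm (H83.below_emb_rel k K w)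
    exact ⟨g, h3.trans hg⟩
  rw [h2]
  exact h1

end Fermat.Agent.S55.H4
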