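/-
Program C (S55), package C3, generic cyclic-class leaves CY6 (restriction) and CY7 (inflation)
of `Fermat/Agent/S55/H66/CycDefs.lean`, conditional on CY1 (`LeafCycCocycle`).
Prover: helper4.  Mathlib + CycDefs only.
-/
import Fermat.Agent.S55.H66.CycDefs

set_option autoImplicit false

noncomputable section

namespace Fermat.Agent.S55.H4

open CategoryTheory groupCohomology Rep Fermat.Agent.S55.H66

section Idx

variable {G : Type} [Group G]

/-- `σ ^ cycIdx σ g = g` as soon as `g` is a natural power of `σ`. -/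
theorem pow_cycIdx_of_exists (σ g : G) (h : ∃ i : ℕ, σ ^ i = g) : σ ^ cycIdx σ g = g := by
  classical
  unfold cycIdx
  rw [dif_pos h]
  exact Nat.find_spec h

/-- `cycIdx σ (σ ^ i) = i % orderOf σ` for `σ` of finite order. -/
theorem cycIdx_pow (σ : G) (i : ℕ) :
    cycIdx σ (σ ^ i) = i % orderOf σ := by
  classical
  have h : ∃ j : ℕ, σ ^ j = σ ^ i := ⟨i, rfl⟩
  unfold cycIdx
  rw [dif_pos h]
  apply le_antisymm
  · exact Nat.find_min' h (pow_mod_orderOf σ i)
  · have h2 := Nat.find_spec h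
    rw [pow_inj_mod] at h2
    rw [← h2]
    exact Nat.mod_le _ _

theorem cycIdx_pow_of_lt (σ : G) {i : ℕ} (hi : i < orderOf σ) : cycIdx σ (σ ^ i) = i := by
  rw [cycIdx_pow σ, Nat.mod_eq_of_lt hi]

variable [Finite G]

theorem exists_pow_eq_of_mem_zpowers (σ g : G) (h : g ∈ Subgroup.zpowers σ) :
    ∃ i : ℕ, σ ^ i = g := by
  rw [← mem_powers_iff_mem_zpowers] at h
  exact h

theorem pow_cycIdx (σ g : G) (h : g ∈ Subgroup.zpowers σ) : σ ^ cycIdx σ g = g :=
  pow_cycIdx_of_exists σ g (exists_pow_eq_of_mem_zpowers σ g h)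

theorem cycIdx_lt_orderOf (σ g : G) (h : g ∈ Subgroup.zpowers σ) : cycIdx σ g < orderOf σ := by
  have h0 : 0 < orderOf σ := orderOf_pos σ
  have h1 := cycIdx_pow σ (cycIdx σ g)
  rw [pow_cycIdx σ g h] at h1
  rw [h1]
  exact Nat.mod_lt _ h0

theorem cycIdx_mul (σ g h : G) (hg : g ∈ Subgroup.zpowers σ) (hh : h ∈ Subgroup.zpowers σ) :
    cycIdx σ (g * h) = (cycIdx σ g + cycIdx σ h) % orderOf σ := by
  rw [← cycIdx_pow σ, pow_add, pow_cycIdx σ g hg, pow_cycIdx σ h hh]

end Idx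

section Leaves

/-- The image of an invariant under a morphism `res φ A ⟶ A'` is invariant. -/
theorem invariant_hom {k G G' : Type} [CommRing k] [Group G] [Group G']
    {A : Rep.{0, 0, 0} k G} {A' : Rep.{0, 0, 0} k G'} (φ : G' →* G) (f : res φ A ⟶ A')
    (a : A) (ha : ∀ g : G, A.ρ g a = a) (g : G') : A'.ρ g (f.hom a) = f.hom a := by
  have h := Rep.hom_comm_apply f g a
  rw [← h]
  exact congrArg f.hom (ha (φ g))

/-- CY6 (restriction), conditional on CY1. -/
theorem leafCycRes_of (h1 : LeafCycCocycle) : LeafCycRes := by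
  intro k G G' _ _ _ _ _ A A' φ f σ τ d hσ hτ hφ hφτ hd a ha
  have hc : cycFun A σ a ∈ cocycles₂ A := h1 k G A σ hσ a ha
  have ha' : ∀ g : G', A'.ρ g (f.hom a) = f.hom a := invariant_hom φ f a ha
  have hc' : cycFun A' τ (f.hom a) ∈ cocycles₂ A' := h1 k G' A' τ hτ _ ha'
  have hn : 0 < orderOf σ := orderOf_pos σ
  have hd0 : 0 < d := by
    rcases Nat.eq_zero_or_pos d with h | h
    · rw [h, zero_mul] at hd
      omega
    · exact h
  unfold cycClass
  rw [dif_pos hc, dif_pos hc']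
  have key : mapCocycles₂ φ f ⟨cycFun A σ a, hc⟩ = ⟨cycFun A' τ (f.hom a), hc'⟩ := by
    apply cocycles₂_ext
    intro g h
    have hg := pow_cycIdx τ g (hτ g)
    have hh := pow_cycIdx τ h (hτ h)
    have hgl := cycIdx_lt_orderOf τ g (hτ g)
    have hhl := cycIdx_lt_orderOf τ h (hτ h)
    have e1 : cycIdx σ (φ g) = d * cycIdx τ g := by
      conv_lhs => rw [← hg, map_pow, hφτ, ← pow_mul]
      apply cycIdx_pow_of_lt
      rw [← hd]
      exact Nat.mul_lt_mul_of_pos_left hgl hd0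
    have e2 : cycIdx σ (φ h) = d * cycIdx τ h := by
      conv_lhs => rw [← hh, map_pow, hφτ, ← pow_mul]
      apply cycIdx_pow_of_lt
      rw [← hd]
      exact Nat.mul_lt_mul_of_pos_left hhl hd0
    change f.hom (cycFun A σ a (φ g, φ h)) = cycFun A' τ (f.hom a) (g, h)
    unfold cycFun
    simp only
    rw [e1, e2, ← hd, ← mul_add]
    by_cases hle : orderOf τ ≤ cycIdx τ g + cycIdx τ h
    · rw [if_pos (Nat.mul_le_mul_left d hle), if_pos hle]
    · rw [if_neg (fun hcon => hle (Nat.le_of_mul_le_mul_left hcon hd0)), if_neg hle, map_zero]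
  have h2 := H2π_comp_map_apply φ f (⟨cycFun A σ a, hc⟩ : cocycles₂ A)
  rw [key] at h2
  exact h2

/-- The numerical identity behind CY7. -/
theorem carry_identity (n d i j : ℕ) (hn : 0 < n) (hi : i < d * n) (hj : j < d * n) :
    ((i + j) % (d * n)) / n + (if d * n ≤ i + j then d else 0) =
      (if n ≤ i % n + j % n then 1 else 0) + j / n + i / n := by
  have hadd := Nat.add_div (a := i) (b := j) hn
  by_cases hle : d * n ≤ i + j
  · rw [if_pos hle]
    have h1 : (i + j) % (d * n) = i + j - d * n := by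
      rw [Nat.mod_eq_sub_mod hle]
      exact Nat.mod_eq_of_lt (by omega)
    have h2 : (i + j - d * n) / n = (i + j) / n - d := by
      rw [Nat.mul_comm d n]
      exact Nat.sub_mul_div (i + j) n d
    have h3 : d ≤ (i + j) / n := (Nat.le_div_iff_mul_le hn).2 hle
    rw [h1, h2, Nat.sub_add_cancel h3, hadd]
    ring
  · rw [if_neg hle, Nat.mod_eq_of_lt (not_le.1 hle), hadd]
    ring

/-- CY7 (inflation), conditional on CY1. -/
theorem leafCycInf_of (h1 : LeafCycCocycle) : LeafCycInf := by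
  intro k G G' _ _ _ _ _ A A' φ f σ τ d hσ hτ hφτ hd a ha
  have hc : cycFun A σ a ∈ cocycles₂ A := h1 k G A σ hσ a ha
  have ha' : ∀ g : G', A'.ρ g (f.hom a) = f.hom a := invariant_hom φ f a ha
  have ha'' : ∀ g : G', A'.ρ g (d • f.hom a) = d • f.hom a := fun g => by
    rw [map_nsmul, ha' g]
  have hc' : cycFun A' τ (d • f.hom a) ∈ cocycles₂ A' := h1 k G' A' τ hτ _ ha''
  have hn : 0 < orderOf σ := orderOf_pos σ
  unfold cycClass
  rw [dif_pos hc, dif_pos hc']
  have h2 := H2π_comp_map_apply φ f (⟨cycFun A σ a, hc⟩ : cocycles₂ A)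
  refine h2.trans ?_
  rw [H2π_eq_iff]
  refine ⟨fun g => -((cycIdx τ g / orderOf σ) • f.hom a), ?_⟩
  funext x
  obtain ⟨g, h⟩ := x
  have hg := pow_cycIdx τ g (hτ g)
  have hh := pow_cycIdx τ h (hτ h)
  have hgl := cycIdx_lt_orderOf τ g (hτ g)
  have hhl := cycIdx_lt_orderOf τ h (hτ h)
  have e1 : cycIdx σ (φ g) = cycIdx τ g % orderOf σ := by
    conv_lhs => rw [← hg, map_pow, hφτ]
    exact cycIdx_pow σ _
  have e2 : cycIdx σ (φ h) = cycIdx τ h % orderOf σ := by
    conv_lhs => rw [← hh, map_pow, hφτ]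
    exact cycIdx_pow σ _
  have e3 : cycIdx τ (g * h) = (cycIdx τ g + cycIdx τ h) % (d * orderOf σ) := by
    rw [cycIdx_mul τ g h (hτ g) (hτ h), hd]
  have hnum := carry_identity (orderOf σ) d (cycIdx τ g) (cycIdx τ h) hn (hd ▸ hgl) (hd ▸ hhl)
  have hx : (mapCocycles₂ φ f ⟨cycFun A σ a, hc⟩ : G' × G' → A') (g, h) =
      (if orderOf σ ≤ cycIdx τ g % orderOf σ + cycIdx τ h % orderOf σ then 1 else 0) •
        f.hom a := by
    change f.hom (cycFun A σ a (φ g, φ h)) = _
    unfold cycFun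
    simp only
    rw [e1, e2]
    split_ifs
    · rw [one_smul]
    · rw [map_zero, zero_smul]
  have hy : cycFun A' τ (d • f.hom a) (g, h) =
      (if d * orderOf σ ≤ cycIdx τ g + cycIdx τ h then d else 0) • f.hom a := by
    unfold cycFun
    simp only
    rw [hd]
    split_ifs
    · rfl
    · rw [zero_smul]
  have hE : ((cycIdx τ g + cycIdx τ h) % (d * orderOf σ) / orderOf σ) • f.hom a +
      (if d * orderOf σ ≤ cycIdx τ g + cycIdx τ h then d else 0) • f.hom a =
      (if orderOf σ ≤ cycIdx τ g % orderOf σ + cycIdx τ h % orderOf σ then 1 else 0) •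
        f.hom a + (cycIdx τ h / orderOf σ) • f.hom a + (cycIdx τ g / orderOf σ) • f.hom a := by
    rw [← add_smul, ← add_smul, ← add_smul, hnum]
  change A'.ρ g (-((cycIdx τ h / orderOf σ) • f.hom a)) -
      -((cycIdx τ (g * h) / orderOf σ) • f.hom a) + -((cycIdx τ g / orderOf σ) • f.hom a) =
    (mapCocycles₂ φ f ⟨cycFun A σ a, hc⟩ : G' × G' → A') (g, h) -
      cycFun A' τ (d • f.hom a) (g, h)
  rw [hx, hy, e3, map_neg, map_nsmul, ha' g]
  have hE' := eq_sub_of_add_eq hE
  rw [sub_neg_eq_add, hE']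
  abel

end Leaves

end Fermat.Agent.S55.H4
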