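/-
Program C (S55), package C3: the generic cyclic-class leaves CY6 (`LeafCycRes`) and CY7
(`LeafCycInf`) of `Fermat/Agent/S55/H66/CycDefs.lean`, VERBATIM.
Prover: helper4 (CY6, CY7 conditional on CY1 in `CycResInf.lean`) on top of helper10's CY1
(`Fermat.Agent.S55.H10.leafCycCocycle`).
-/
import Fermat.Agent.S55.H4.CycResInf
import Fermat.Agent.S55.H10.CycBasic

set_option autoImplicit false

namespace Fermat.Agent.S55.H4

/-- CY6: restriction of cyclic classes. -/
theorem leafCycRes : Fermat.Agent.S55.H66.LeafCycRes :=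
  leafCycRes_of Fermat.Agent.S55.H10.leafCycCocycle

/-- CY7: inflation of cyclic classes. -/
theorem leafCycInf : Fermat.Agent.S55.H66.LeafCycInf :=
  leafCycInf_of Fermat.Agent.S55.H10.leafCycCocycle

end Fermat.Agent.S55.H4
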