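/-
Program C (S55), package C8, leaf (RES-LIFT), Mathlib-only core (helper4).

* subgroups of a finite cyclic group: `H = zpowers (σ ^ [G : H])`;
* the Hilbert 90 step in a cyclic tower `k ⊆ E ⊆ K`: if `σ b / b` is a norm from `K` to `E`
  (`σ` a generator of `Gal(K/k)`, `b ∈ Eˣ`), then `b = a · N_{K/E}(c)` with `a ∈ kˣ`, `c ∈ Kˣ`.
-/
import Mathlib

set_option autoImplicit false

noncomputable section

namespace Fermat.Agent.S55.H4

section Cyclic

variable {G : Type*} [Group G]

/-- In a group generated by one element all elements commute. -/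
theorem commute_of_forall_mem_zpowers (σ : G) (hσ : ∀ g : G, g ∈ Subgroup.zpowers σ) (g h : G) :
    g * h = h * g := by
  obtain ⟨i, rfl⟩ := Subgroup.mem_zpowers_iff.1 (hσ g)
  obtain ⟨j, rfl⟩ := Subgroup.mem_zpowers_iff.1 (hσ h)
  exact ((Commute.refl σ).zpow_zpow i j).eq

/-- Every subgroup of a group generated by one element is normal. -/
theorem normal_of_forall_mem_zpowers (σ : G) (hσ : ∀ g : G, g ∈ Subgroup.zpowers σ)
    (H : Subgroup G) : H.Normal := by
  refine ⟨fun h hh g => ?_⟩
  rw [commute_of_forall_mem_zpowers σ hσ g h, mul_inv_cancel_right]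
  exact hh

variable [Finite G]

/-- A subgroup of index `d` of the finite cyclic group generated by `σ` is generated by `σ ^ d`. -/
theorem eq_zpowers_pow_index (σ : G) (hσ : ∀ g : G, g ∈ Subgroup.zpowers σ) (H : Subgroup G) :
    H = Subgroup.zpowers (σ ^ H.index) := by
  haveI := normal_of_forall_mem_zpowers σ hσ H
  symm
  apply Subgroup.eq_of_le_of_card_ge
  · rw [Subgroup.zpowers_le]
    exact H.pow_index_mem σ
  · rw [Nat.card_zpowers, orderOf_pow, orderOf_eq_card_of_forall_mem_zpowers hσ,
      Nat.gcd_eq_right H.index_dvd_card, ← H.card_mul_index,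
      Nat.mul_div_cancel _ (Nat.pos_of_ne_zero (Subgroup.index_ne_zero_of_finite))]

theorem index_mul_orderOf_pow_index (σ : G) (hσ : ∀ g : G, g ∈ Subgroup.zpowers σ)
    (H : Subgroup G) : H.index * orderOf (σ ^ H.index) = orderOf σ := by
  rw [orderOf_pow, orderOf_eq_card_of_forall_mem_zpowers hσ, Nat.gcd_eq_right H.index_dvd_card,
    Nat.mul_div_cancel' H.index_dvd_card]

end Cyclic

section Hilbert90

variable (k E K : Type) [Field k] [Field E] [Field K] [Algebra k E] [Algebra E K] [Algebra k K]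
  [IsScalarTower k E K] [FiniteDimensional k K] [IsGalois k K] [Normal k E]

omit [IsScalarTower k E K] [FiniteDimensional k K] [IsGalois k K] [Normal k E] [Algebra k E]
  [Algebra k K] [Field k] in
/-- The norm of a quotient. -/
theorem norm_div_eq [FiniteDimensional E K] (x y : K) :
    Algebra.norm E (x / y) = Algebra.norm E x / Algebra.norm E y := by
  rw [div_eq_mul_inv, map_mul, Algebra.norm_inv, ← div_eq_mul_inv]

/-- An element of `K` fixed by a generator of `Gal(K/k)` lies in `k`. -/
theorem mem_range_of_generator_fixed (σ : K ≃ₐ[k] K) (hσ : ∀ g : K ≃ₐ[k] K, g ∈ Subgroup.zpowers σ)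
    (x : K) (hx : σ x = x) : ∃ a : k, algebraMap k K a = x := by
  have h1 : ∀ g : K ≃ₐ[k] K, g x = x := by
    intro g
    have h2 : Subgroup.zpowers σ ≤ MulAction.stabilizer (K ≃ₐ[k] K) x := by
      rw [Subgroup.zpowers_le]
      exact hx
    exact h2 (hσ g)
  exact (IsGalois.mem_range_algebraMap_iff_fixed (F := k) x).2 h1

omit [Normal k E] in
/-- The norm from `K` to `E` commutes with a generator of the cyclic group `Gal(K/k)`. -/
theorem norm_apply_generator (σ : K ≃ₐ[k] K) (hσ : ∀ g : K ≃ₐ[k] K, g ∈ Subgroup.zpowers σ)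
    (y : K) :
    algebraMap E K (Algebra.norm E (σ y)) = σ (algebraMap E K (Algebra.norm E y)) := by
  haveI : IsGalois E K := IsGalois.tower_top_of_isGalois k E K
  haveI : FiniteDimensional E K := Module.Finite.right k E K
  rw [Algebra.norm_eq_prod_automorphisms, Algebra.norm_eq_prod_automorphisms, map_prod]
  refine Finset.prod_congr rfl fun g _ => ?_
  have h1 := commute_of_forall_mem_zpowers σ hσ σ (AlgEquiv.restrictScalars k g)
  have h2 := congrArg (fun τ : K ≃ₐ[k] K => τ y) h1
  exact h2.symm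

/-- **The Hilbert 90 step.**  If `σ b / b = N_{K/E}(d)` for a generator `σ` of the cyclic group
`Gal(K/k)` and `b ∈ Eˣ`, then `b = a · N_{K/E}(c)` with `a ∈ kˣ` and `c ∈ Kˣ`. -/
theorem exists_base_mul_norm [IsCyclic (K ≃ₐ[k] K)] (σ : K ≃ₐ[k] K)
    (hσ : ∀ g : K ≃ₐ[k] K, g ∈ Subgroup.zpowers σ) (b : E) (hb : b ≠ 0) (d : K)
    (hd : algebraMap E K (Algebra.norm E d) = σ (algebraMap E K b) / algebraMap E K b) :
    ∃ (a : k) (c : K), a ≠ 0 ∧ c ≠ 0 ∧
      algebraMap E K b = algebraMap k K a * algebraMap E K (Algebra.norm E c) := by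
  haveI : FiniteDimensional E K := Module.Finite.right k E K
  haveI : FiniteDimensional k E := Module.Finite.left k E K
  have heb : algebraMap E K b ≠ 0 := (map_ne_zero (algebraMap E K)).2 hb
  -- the norm of `d` down to `k` is `1`
  have h1 : Algebra.norm E d = (σ.restrictNormal E) b / b := by
    apply (algebraMap E K).injective
    rw [hd, map_div₀, AlgEquiv.restrictNormal_commutes]
  have h2 : Algebra.norm k d = 1 := by
    rw [← Algebra.norm_norm (S := E), h1, norm_div_eq, Algebra.norm_eq_of_algEquiv]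
    exact div_self ((Algebra.norm_ne_zero_iff).2 hb)
  -- Hilbert 90
  obtain ⟨y, hy⟩ := groupCohomology.exists_div_of_norm_eq_one hσ h2
  have hy0 : (y : K) ≠ 0 := y.ne_zero
  have hNy : algebraMap E K (Algebra.norm E (y : K)) ≠ 0 :=
    (map_ne_zero (algebraMap E K)).2 ((Algebra.norm_ne_zero_iff).2 hy0)
  have hσNy : σ (algebraMap E K (Algebra.norm E (y : K))) ≠ 0 :=
    (map_ne_zero σ).2 hNy
  -- `b · N(y)` is fixed by `σ`
  have h3 : algebraMap E K (Algebra.norm E d)
      = algebraMap E K (Algebra.norm E (y : K)) / σ (algebraMap E K (Algebra.norm E (y : K))) := by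
    rw [← hy, norm_div_eq, map_div₀, norm_apply_generator k E K σ hσ]
  have h4 : σ (algebraMap E K b * algebraMap E K (Algebra.norm E (y : K)))
      = algebraMap E K b * algebraMap E K (Algebra.norm E (y : K)) := by
    rw [map_mul]
    have h5 := hd.symm.trans h3
    field_simp at h5
    linear_combination h5
  obtain ⟨a, ha⟩ := mem_range_of_generator_fixed k K σ hσ _ h4
  refine ⟨a, ((y : K))⁻¹, ?_, inv_ne_zero hy0, ?_⟩
  · rintro rfl
    rw [map_zero] at ha
    exact mul_ne_zero heb hNy ha.symm
  · rw [ha, Algebra.norm_inv, map_inv₀, mul_inv_cancel_right₀ hNy]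

end Hilbert90

end Fermat.Agent.S55.H4
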