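/-
Program C (S55), package C8, leaf (RES-LIFT) (helper4):

  cyclicResLift p : PGroupHasseStatement p → LinvConjStatement → SubH2InjStatement →
    CyclicResLiftStatement p

In a cyclic layer `K / k` of `p`-power degree over `k ∋ μ_p`, a class of `K / E` whose local
invariants are `[E_w : k_v] • t v` is the restriction of a class of `K / k`.

Proof.  `σ` a generator of `G = Gal(K/k)`, `d = [G : H]`, `H = Gal(K/E) = ⟨σ ^ d⟩`, `σ'` the
`E`-linear version of `σ ^ d`.  The class is `cycClass σ' b`, `b ∈ Eˣ` (CY2).  By LINV-CONJ and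
the hypothesis on the invariants, `cycClass σ' (σ b / b)` has all invariants `0`, hence vanishes
(Hasse for `K / E`), hence `σ b / b` is a norm from `K` (CY3, CY4).  By Hilbert 90 for `K / k`,
`b = a · N_{K/E}(c)` with `a ∈ kˣ`, so `cycClass σ' b = cycClass σ' a`, the restriction of
`cycClass σ a` (CY6).
-/
import Fermat.Agent.S55.H29.C8Ex
import Fermat.Agent.S55.H10.CycSurj
import Fermat.Agent.S55.H4.CycResInfLeaves
import Fermat.Agent.S55.H4.ResLiftCore

set_option autoImplicit false

open CategoryTheory groupCohomology Rep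

noncomputable section

namespace Fermat.Agent.S55.H4

open Fermat.Agent.S55.H88 Fermat.Agent.S55.H66 Fermat.Agent.S55.H29

section Dict

variable (E K : Type) [Field E] [Field K] [Algebra E K]

/-- The unit of `K` underlying an element of the Galois module `Kˣ`. -/
def repUnit (x : Rep.ofAlgebraAutOnUnits E K) : Kˣ := Additive.toMul (Rep.toAdditive x)

/-- A unit of `K` as an element of the Galois module `Kˣ`. -/
def unitRep (u : Kˣ) : Rep.ofAlgebraAutOnUnits E K := Rep.toAdditive.symm (Additive.ofMul u)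

theorem repUnit_unitRep (u : Kˣ) : repUnit E K (unitRep E K u) = u := rfl

theorem unitRep_repUnit (x : Rep.ofAlgebraAutOnUnits E K) : unitRep E K (repUnit E K x) = x := rfl

theorem unitRep_mul (u v : Kˣ) : unitRep E K (u * v) = unitRep E K u + unitRep E K v := rfl

theorem repUnit_rho (g : K ≃ₐ[E] K) (x : Rep.ofAlgebraAutOnUnits E K) :
    ((repUnit E K ((Rep.ofAlgebraAutOnUnits E K).ρ g x) : Kˣ) : K) = g (repUnit E K x : K) := rfl

theorem unitOfBase_eq (b : Eˣ) :
    unitOfBase E K b = unitRep E K (Units.map (algebraMap E K : E →* K) b) := rfl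

theorem repUnit_unitOfBase (b : Eˣ) :
    ((repUnit E K (unitOfBase E K b) : Kˣ) : K) = algebraMap E K (b : E) := rfl

theorem unitOfBase_mul (b c : Eˣ) :
    unitOfBase E K (b * c) = unitOfBase E K b + unitOfBase E K c := by
  rw [unitOfBase_eq, unitOfBase_eq, unitOfBase_eq, map_mul, unitRep_mul]

theorem rep_ext (x y : Rep.ofAlgebraAutOnUnits E K)
    (h : ((repUnit E K x : Kˣ) : K) = ((repUnit E K y : Kˣ) : K)) : x = y := by
  rw [← unitRep_repUnit E K x, ← unitRep_repUnit E K y]
  exact congrArg (unitRep E K) (Units.ext h)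

/-- Elements of the base field are invariant. -/
theorem unitOfBase_invariant (b : Eˣ) (g : K ≃ₐ[E] K) :
    (Rep.ofAlgebraAutOnUnits E K).ρ g (unitOfBase E K b) = unitOfBase E K b := by
  apply rep_ext
  rw [repUnit_rho, repUnit_unitOfBase]
  exact g.commutes (b : E)

/-- Invariant elements come from the base field. -/
theorem exists_unitOfBase_of_invariant [FiniteDimensional E K] [IsGalois E K]
    (x : Rep.ofAlgebraAutOnUnits E K)
    (hx : ∀ g : K ≃ₐ[E] K, (Rep.ofAlgebraAutOnUnits E K).ρ g x = x) :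
    ∃ b : Eˣ, unitOfBase E K b = x := by
  have hfix : ∀ g : K ≃ₐ[E] K, g (repUnit E K x : K) = (repUnit E K x : K) := by
    intro g
    rw [← repUnit_rho, hx g]
  obtain ⟨e, he⟩ := (IsGalois.mem_range_algebraMap_iff_fixed (F := E) _).2 hfix
  have he0 : e ≠ 0 := by
    rintro rfl
    rw [map_zero] at he
    exact (repUnit E K x).ne_zero he.symm
  refine ⟨Units.mk0 e he0, ?_⟩
  apply rep_ext
  rw [repUnit_unitOfBase]
  exact he

theorem repUnit_finset_sum {ι : Type} (s : Finset ι) (f : ι → Rep.ofAlgebraAutOnUnits E K) :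
    repUnit E K (∑ i ∈ s, f i) = ∏ i ∈ s, repUnit E K (f i) := by
  classical
  induction s using Finset.induction_on with
  | empty =>
    rw [Finset.sum_empty, Finset.prod_empty]
    rfl
  | insert a s ha ih =>
    rw [Finset.sum_insert ha, Finset.prod_insert ha, ← ih]
    rfl

/-- The sum over the Galois group is the norm. -/
theorem repUnit_sum [FiniteDimensional E K] [IsGalois E K] (x : Rep.ofAlgebraAutOnUnits E K) :
    ((repUnit E K (∑ g : K ≃ₐ[E] K, (Rep.ofAlgebraAutOnUnits E K).ρ g x) : Kˣ) : K)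
      = algebraMap E K (Algebra.norm E (repUnit E K x : K)) := by
  rw [Algebra.norm_eq_prod_automorphisms, repUnit_finset_sum, Units.coe_prod]
  rfl

end Dict

section Gal

variable (k E K : Type) [Field k] [Field E] [Field K] [Algebra k E] [Algebra E K] [Algebra k K]
  [IsScalarTower k E K]

/-- `Gal(K/E) → Gal(K/k)`. -/
def galIncl : (K ≃ₐ[E] K) →* (K ≃ₐ[k] K) :=
  (fixSubgroup k E K).subtype.comp (galToFix k E K)

theorem galIncl_apply (g : K ≃ₐ[E] K) (x : K) : galIncl k E K g x = g x := rfl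

theorem galIncl_injective : Function.Injective (galIncl k E K) := by
  intro g h hgh
  apply AlgEquiv.ext
  intro x
  rw [← galIncl_apply k E K g x, hgh]
  rfl

/-- An element of `fixSubgroup` as an `E`-automorphism. -/
def fixToGal (τ : K ≃ₐ[k] K) (hτ : τ ∈ fixSubgroup k E K) : K ≃ₐ[E] K :=
  { τ.toRingEquiv with commutes' := hτ }

theorem galIncl_fixToGal (τ : K ≃ₐ[k] K) (hτ : τ ∈ fixSubgroup k E K) :
    galIncl k E K (fixToGal k E K τ hτ) = τ := by
  apply AlgEquiv.ext
  intro x
  rfl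

theorem galIncl_mem (g : K ≃ₐ[E] K) : galIncl k E K g ∈ fixSubgroup k E K :=
  (galToFix k E K g).2

/-- The comparison morphism of coefficients for `galIncl`. -/
def galInclHom :
    Rep.res (galIncl k E K) (Rep.ofAlgebraAutOnUnits k K) ⟶ Rep.ofAlgebraAutOnUnits E K :=
  (Rep.resFunctor (galToFix k E K)).map
    (𝟙 (Rep.res (fixSubgroup k E K).subtype (Rep.ofAlgebraAutOnUnits k K))) ≫ resUnitsHom k E K

theorem repUnit_galInclHom (x : Rep.ofAlgebraAutOnUnits k K) :
    repUnit E K ((galInclHom k E K).hom x) = repUnit k K x := rfl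

/-- `subH2 ∘ resH2` is the map induced by `galIncl`. -/
theorem subH2_resH2 (α : groupCohomology (Rep.ofAlgebraAutOnUnits k K) 2) :
    subH2 k E K (resH2 (Rep.ofAlgebraAutOnUnits k K) (fixSubgroup k E K) α)
      = (groupCohomology.map (galIncl k E K) (galInclHom k E K) 2).hom α := by
  have h := groupCohomology.map_comp (fixSubgroup k E K).subtype (galToFix k E K)
    (𝟙 (Rep.res (fixSubgroup k E K).subtype (Rep.ofAlgebraAutOnUnits k K))) (resUnitsHom k E K) 2
  exact (congrArg (fun m => (ModuleCat.Hom.hom m) α) h).symm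

end Gal

section Main

/-- **Leaf (RES-LIFT)** of package C8: in a cyclic layer `K / k` of `p`-power degree over
`k ∋ μ_p`, a class of `K / E` whose local invariants are `[E_w : k_v] • t v` is the restriction
of a class of `K / k`. -/
theorem cyclicResLift (p : ℕ) (hH : PGroupHasseStatement p) (hLC : LinvConjStatement)
    (hInj : SubH2InjStatement) : CyclicResLiftStatement p := by
  intro hp hp2 k E K _ _ _ _ _ _ _ _ _ _ _ _ _ _ hζ hn β t hβ
  haveI : IsGalois E K := IsGalois.tower_top_of_isGalois k E K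
  haveI : FiniteDimensional E K := Module.Finite.right k E K
  haveI : Finite (K ≃ₐ[k] K) := inferInstance
  haveI : Finite (K ≃ₐ[E] K) := inferInstance
  -- compatible generators of `Gal(K/k)` and `Gal(K/E)`
  obtain ⟨σ, hσ⟩ := IsCyclic.exists_generator (α := K ≃ₐ[k] K)
  have hHeq : fixSubgroup k E K = Subgroup.zpowers (σ ^ (fixSubgroup k E K).index) :=
    eq_zpowers_pow_index σ hσ _
  have hσd : σ ^ (fixSubgroup k E K).index ∈ fixSubgroup k E K := by
    haveI := normal_of_forall_mem_zpowers σ hσ (fixSubgroup k E K)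
    exact Subgroup.pow_index_mem _ σ
  obtain ⟨σ', hφσ'⟩ : ∃ σ' : K ≃ₐ[E] K, galIncl k E K σ' = σ ^ (fixSubgroup k E K).index :=
    ⟨fixToGal k E K _ hσd, galIncl_fixToGal k E K _ hσd⟩
  have hσ' : ∀ g : K ≃ₐ[E] K, g ∈ Subgroup.zpowers σ' := by
    intro g
    have h1 : galIncl k E K g ∈ Subgroup.zpowers (σ ^ (fixSubgroup k E K).index) := by
      rw [← hHeq]
      exact galIncl_mem k E K g
    obtain ⟨i, hi⟩ := Subgroup.mem_zpowers_iff.1 h1
    refine Subgroup.mem_zpowers_iff.2 ⟨i, galIncl_injective k E K ?_⟩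
    rw [map_zpow, hφσ', hi]
  have hord : (fixSubgroup k E K).index * orderOf σ' = orderOf σ := by
    rw [← orderOf_injective (galIncl k E K) (galIncl_injective k E K) σ', hφσ']
    exact index_mul_orderOf_pow_index σ hσ _
  -- the class is a cyclic class of an element of `Eˣ` (CY2)
  obtain ⟨a', ha'inv, ha'⟩ := Fermat.Agent.S55.H10.leafCycSurj ℤ (K ≃ₐ[E] K)
    (Rep.ofAlgebraAutOnUnits E K) σ' hσ' (subH2 k E K β)
  obtain ⟨b, rfl⟩ := exists_unitOfBase_of_invariant E K a' ha'inv
  -- the Hasse principle for `K / E`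
  obtain ⟨ζ, hζ'⟩ := hζ
  obtain ⟨n, hn'⟩ := hn
  have hdeg : ∃ m : ℕ, Module.finrank E K = p ^ m := by
    have h1 : Module.finrank E K ∣ p ^ n := by
      rw [← hn', ← Module.finrank_mul_finrank k E K]
      exact dvd_mul_left _ _
    obtain ⟨m, -, hm⟩ := (Nat.dvd_prime_pow hp).1 h1
    exact ⟨m, hm⟩
  have hHasse : (layerOf E K).Hasse :=
    hH hp hp2 E K ⟨algebraMap k E ζ, hζ'.map_of_injective (algebraMap k E).injective⟩ hdeg
  have hlinv : ∀ w : FinPlace E,
      (layerOf E K).linv w (subH2 k E K β) = w.locDeg k • t (w.below k) := hβ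
  -- the cyclic classes of `σ b` and `b` coincide
  have hxy : ∀ w : FinPlace E,
      (layerOf E K).linv w (cycClass (Rep.ofAlgebraAutOnUnits E K) σ'
        (unitOfBase E K (Units.map ((σ.restrictNormal E : E ≃ₐ[k] E) : E →* E) b)))
      = (layerOf E K).linv w (cycClass (Rep.ofAlgebraAutOnUnits E K) σ' (unitOfBase E K b)) := by
    intro w
    obtain ⟨w', hw1, hw2, hw3⟩ := hLC k E K (σ.restrictNormal E) σ' hσ' b w
    rw [hw3, ha', hlinv w', hlinv w, hw1, hw2]
  have hδ : cycClass (Rep.ofAlgebraAutOnUnits E K) σ'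
        (unitOfBase E K (Units.map ((σ.restrictNormal E : E ≃ₐ[k] E) : E →* E) b))
      = cycClass (Rep.ofAlgebraAutOnUnits E K) σ' (unitOfBase E K b) := by
    have h0 := hHasse
      (cycClass (Rep.ofAlgebraAutOnUnits E K) σ'
          (unitOfBase E K (Units.map ((σ.restrictNormal E : E ≃ₐ[k] E) : E →* E) b))
        - cycClass (Rep.ofAlgebraAutOnUnits E K) σ' (unitOfBase E K b))
      (fun w => (map_sub ((layerOf E K).linv w) _ _).trans (sub_eq_zero.2 (hxy w)))
    exact sub_eq_zero.1 h0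
  -- hence `σ b / b` is a norm from `K`
  have hq0 : cycClass (Rep.ofAlgebraAutOnUnits E K) σ'
      (unitOfBase E K (Units.map ((σ.restrictNormal E : E ≃ₐ[k] E) : E →* E) b / b)) = 0 := by
    have h4 := Fermat.Agent.S55.H10.leafCycAdd ℤ (K ≃ₐ[E] K) (Rep.ofAlgebraAutOnUnits E K) σ' hσ'
      (unitOfBase E K (Units.map ((σ.restrictNormal E : E ≃ₐ[k] E) : E →* E) b / b))
      (unitOfBase E K b) (unitOfBase_invariant E K _) (unitOfBase_invariant E K _)
    rw [← unitOfBase_mul, div_mul_cancel, hδ] at h4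
    exact add_eq_right.1 h4.symm
  obtain ⟨d', hd'⟩ := (Fermat.Agent.S55.H10.leafCycZero ℤ (K ≃ₐ[E] K)
    (Rep.ofAlgebraAutOnUnits E K) σ' hσ' _ (unitOfBase_invariant E K _)).1 hq0
  have hd0 : algebraMap E K (Algebra.norm E (repUnit E K d' : K))
      = σ (algebraMap E K (b : E)) / algebraMap E K (b : E) := by
    rw [← repUnit_sum, hd', repUnit_unitOfBase, Units.val_div_eq_div_val, map_div₀,
      Units.coe_map]
    congr 1
    exact AlgEquiv.restrictNormal_commutes σ E (b : E)
  -- Hilbert 90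
  obtain ⟨a, c, ha0, hc0, hac⟩ :=
    exists_base_mul_norm k E K σ hσ (b : E) b.ne_zero (repUnit E K d' : K) hd0
  have hb_eq : unitOfBase E K b
      = unitOfBase E K (Units.map (algebraMap k E : k →* E) (Units.mk0 a ha0))
        + ∑ g : K ≃ₐ[E] K, (Rep.ofAlgebraAutOnUnits E K).ρ g (unitRep E K (Units.mk0 c hc0)) := by
    apply rep_ext
    show _ = ((repUnit E K (unitOfBase E K (Units.map (algebraMap k E : k →* E) (Units.mk0 a ha0)))
      * repUnit E K (∑ g : K ≃ₐ[E] K, (Rep.ofAlgebraAutOnUnits E K).ρ g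
          (unitRep E K (Units.mk0 c hc0))) : Kˣ) : K)
    rw [Units.val_mul, repUnit_sum, repUnit_unitOfBase, repUnit_unitOfBase, repUnit_unitRep, hac]
    congr 1
    exact IsScalarTower.algebraMap_apply k E K a
  have hNinv : ∀ g : K ≃ₐ[E] K, (Rep.ofAlgebraAutOnUnits E K).ρ g
      (∑ g : K ≃ₐ[E] K, (Rep.ofAlgebraAutOnUnits E K).ρ g (unitRep E K (Units.mk0 c hc0)))
      = ∑ g : K ≃ₐ[E] K, (Rep.ofAlgebraAutOnUnits E K).ρ g (unitRep E K (Units.mk0 c hc0)) := by
    intro g
    have h1 : (∑ g : K ≃ₐ[E] K, (Rep.ofAlgebraAutOnUnits E K).ρ g (unitRep E K (Units.mk0 c hc0)))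
        = unitOfBase E K b
          - unitOfBase E K (Units.map (algebraMap k E : k →* E) (Units.mk0 a ha0)) :=
      eq_sub_of_add_eq' hb_eq.symm
    rw [h1, map_sub, unitOfBase_invariant, unitOfBase_invariant]
  have hN0 : cycClass (Rep.ofAlgebraAutOnUnits E K) σ'
      (∑ g : K ≃ₐ[E] K, (Rep.ofAlgebraAutOnUnits E K).ρ g (unitRep E K (Units.mk0 c hc0))) = 0 :=
    (Fermat.Agent.S55.H10.leafCycZero ℤ (K ≃ₐ[E] K) (Rep.ofAlgebraAutOnUnits E K) σ' hσ' _
      hNinv).2 ⟨_, rfl⟩
  have hcyc : cycClass (Rep.ofAlgebraAutOnUnits E K) σ' (unitOfBase E K b)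
      = cycClass (Rep.ofAlgebraAutOnUnits E K) σ'
          (unitOfBase E K (Units.map (algebraMap k E : k →* E) (Units.mk0 a ha0))) := by
    have h4 := Fermat.Agent.S55.H10.leafCycAdd ℤ (K ≃ₐ[E] K) (Rep.ofAlgebraAutOnUnits E K) σ' hσ'
      (unitOfBase E K (Units.map (algebraMap k E : k →* E) (Units.mk0 a ha0)))
      (∑ g : K ≃ₐ[E] K, (Rep.ofAlgebraAutOnUnits E K).ρ g (unitRep E K (Units.mk0 c hc0)))
      (unitOfBase_invariant E K _) hNinv
    rw [← hb_eq, hN0, add_zero] at h4
    exact h4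
  -- restriction of the cyclic class of `a` (CY6)
  have h6 := leafCycRes ℤ (K ≃ₐ[k] K) (K ≃ₐ[E] K) (Rep.ofAlgebraAutOnUnits k K)
    (Rep.ofAlgebraAutOnUnits E K) (galIncl k E K) (galInclHom k E K) σ σ'
    (fixSubgroup k E K).index hσ hσ' (galIncl_injective k E K) hφσ' hord
    (unitOfBase k K (Units.mk0 a ha0)) (unitOfBase_invariant k K _)
  have hfa : (galInclHom k E K).hom (unitOfBase k K (Units.mk0 a ha0))
      = unitOfBase E K (Units.map (algebraMap k E : k →* E) (Units.mk0 a ha0)) := by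
    apply rep_ext
    rw [repUnit_galInclHom, repUnit_unitOfBase, repUnit_unitOfBase]
    exact IsScalarTower.algebraMap_apply k E K a
  refine ⟨cycClass (Rep.ofAlgebraAutOnUnits k K) σ (unitOfBase k K (Units.mk0 a ha0)), ?_⟩
  apply hInj k E K
  show subH2 k E K (resH2 (Rep.ofAlgebraAutOnUnits k K) (fixSubgroup k E K) _) = subH2 k E K β
  rw [subH2_resH2, h6, hfa, ← hcyc, ha']

end Main

end Fermat.Agent.S55.H4
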