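/-
Program C (S55), package C8, leaf (RES-LIFT), final form (helper4): with the landed leaves
(LINV-CONJ) `H76.linvConjStatement` and (SUB-PRES) `H79.subH2InjStatement`, the only remaining
input is the Hasse principle for `p`-group layers:

  cyclicResLift_of_hasse p : PGroupHasseStatement p → CyclicResLiftStatement p
-/
import Fermat.Agent.S55.H4.ResLift
import Fermat.Agent.S55.H76.LinvConjFinal
import Fermat.Agent.S55.H79.SubPres

set_option autoImplicit false

namespace Fermat.Agent.S55.H4

/-- **Leaf (RES-LIFT)** from the Hasse principle for `p`-group layers alone. -/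
theorem cyclicResLift_of_hasse (p : ℕ) (hH : Fermat.Agent.S55.H29.PGroupHasseStatement p) :
    Fermat.Agent.S55.H29.CyclicResLiftStatement p :=
  cyclicResLift p hH Fermat.Agent.S55.H76.linvConjStatement
    Fermat.Agent.S55.H79.subH2InjStatement

end Fermat.Agent.S55.H4
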