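/-
Program C (S55), package C4, leaf M2, half 1 (helper4): tools for the representation-theoretic
closure principle `Fermat.Agent.S55.H80.ClosureStatement`.  Mathlib only.

* `rep_shortExact_of_elementwise` : short exactness in `Rep` from elementwise facts;
* coinduction from a subgroup preserves (elementwise) short exact sequences;
* coinduction of a representation fixed by a normal subgroup `U ≤ H` is fixed by `U`.
-/
import Mathlib

set_option autoImplicit false

open CategoryTheory

noncomputable section

namespace Fermat.Agent.S55.H4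

section Generic

variable {k : Type} [CommRing k] {G : Type} [Group G]

/-- Short exactness in `Rep` from elementwise facts. -/
theorem rep_shortExact_of_elementwise (X : ShortComplex (Rep.{0} k G))
    (h1 : Function.Injective X.f.hom)
    (h2 : ∀ y : X.X₂, X.g.hom y = 0 → ∃ x : X.X₁, X.f.hom x = y)
    (h3 : Function.Surjective X.g.hom) : X.ShortExact := by
  refine
    { exact := ?_
      mono_f := (Rep.mono_iff_injective X.f).2 h1
      epi_g := (Rep.epi_iff_surjective X.g).2 h3 }
  rw [← ShortComplex.exact_map_iff_of_faithful X (forget₂ (Rep.{0} k G) (ModuleCat.{0} k)),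
    ShortComplex.moduleCat_exact_iff]
  intro y hy
  exact h2 y hy

variable (H : Subgroup G)

theorem coindMap_injective {A B : Rep.{0} k H} (f : A ⟶ B) (hf : Function.Injective f.hom) :
    Function.Injective (Rep.coindMap H.subtype f).hom := by
  intro x y hxy
  apply Subtype.ext
  funext g
  apply hf
  exact congrFun (congrArg Subtype.val hxy) g

theorem coindMap_exact {A B C : Rep.{0} k H} (f : A ⟶ B) (g : B ⟶ C)
    (hf : Function.Injective f.hom) (hex : ∀ b : B, g.hom b = 0 → ∃ a : A, f.hom a = b)
    (y : Rep.coind H.subtype B) (hy : (Rep.coindMap H.subtype g).hom y = 0) :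
    ∃ x : Rep.coind H.subtype A, (Rep.coindMap H.subtype f).hom x = y := by
  have h1 : ∀ x₀ : G, g.hom (y.1 x₀) = 0 := fun x₀ => congrFun (congrArg Subtype.val hy) x₀
  choose a ha using fun x₀ => hex (y.1 x₀) (h1 x₀)
  refine ⟨⟨a, ?_⟩, ?_⟩
  · intro h x₀
    apply hf
    rw [ha, Rep.hom_comm_apply, ha]
    exact y.2 h x₀
  · apply Subtype.ext
    funext x₀
    exact ha x₀

theorem coindMap_surjective {B C : Rep.{0} k H} (g : B ⟶ C) (hg : Function.Surjective g.hom) :
    Function.Surjective (Rep.coindMap H.subtype g).hom := by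
  have h1 : Epi g := (Rep.epi_iff_surjective g).2 hg
  have h2 : Epi ((Rep.coindFunctor k H.subtype).map g) := inferInstance
  exact (Rep.epi_iff_surjective _).1 h2

theorem coindMap_comp_zero {A B C : Rep.{0} k H} (f : A ⟶ B) (g : B ⟶ C)
    (hzero : ∀ a : A, g.hom (f.hom a) = 0) :
    Rep.coindMap H.subtype f ≫ Rep.coindMap H.subtype g = 0 := by
  apply Rep.hom_ext
  apply Representation.IntertwiningMap.ext
  apply LinearMap.ext
  intro x
  apply Subtype.ext
  funext x₀
  exact hzero (x.1 x₀)

/-- Coinduction of an elementwise short exact sequence is short exact. -/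
theorem coind_shortExact {A B C : Rep.{0} k H} (f : A ⟶ B) (g : B ⟶ C)
    (hf : Function.Injective f.hom) (hzero : ∀ a : A, g.hom (f.hom a) = 0)
    (hex : ∀ b : B, g.hom b = 0 → ∃ a : A, f.hom a = b) (hg : Function.Surjective g.hom) :
    (ShortComplex.mk (Rep.coindMap H.subtype f) (Rep.coindMap H.subtype g)
      (coindMap_comp_zero H f g hzero)).ShortExact :=
  rep_shortExact_of_elementwise _ (coindMap_injective H f hf)
    (fun y hy => coindMap_exact H f g hf hex y hy) (coindMap_surjective H g hg)

/-- The coinduction of a representation of `H` on which the normal subgroup `U ≤ H` of `G` acts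
trivially is fixed pointwise by `U`. -/
theorem coind_fixed (U : Subgroup G) (hU : U.Normal) (hUH : U ≤ H) (N : Rep.{0} k H)
    (hN : ∀ u : H, (u : G) ∈ U → ∀ n : N, N.ρ u n = n) (F : Rep.coind H.subtype N) (s : G)
    (hs : s ∈ U) : (Rep.coind H.subtype N).ρ s F = F := by
  apply Subtype.ext
  funext g
  show F.1 (g * s) = F.1 g
  have h1 : g * s * g⁻¹ ∈ U := hU.conj_mem s hs g
  have h2 := F.2 ⟨g * s * g⁻¹, hUH h1⟩ g
  have h3 : H.subtype ⟨g * s * g⁻¹, hUH h1⟩ * g = g * s := by simp
  rw [h3] at h2
  rw [h2]
  exact hN _ h1 _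

end Generic

end Fermat.Agent.S55.H4
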