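/-
Program C (S55), package C4, leaf M2, half 1 (helper4): the invariant functional.
A group acting linearly on a nonzero finite-dimensional vector space over a finite field of
characteristic `p`, through elements of `p`-power order, has a nonzero invariant linear
functional.  Mathlib only.
-/
import Mathlib

set_option autoImplicit false

noncomputable section

namespace Fermat.Agent.S55.H4

section Fixed

variable {k : Type} [Field k]
variable {H : Type} [Group H]
variable {N : Type} [AddCommGroup N] [Module k N]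

/-- The action of `H` on the dual space, as a homomorphism to the permutations of the dual. -/
def dualPerm (ρ : Representation k H N) : H →* Equiv.Perm (N →ₗ[k] k) where
  toFun h :=
    { toFun := fun l => l ∘ₗ ρ h⁻¹
      invFun := fun l => l ∘ₗ ρ h
      left_inv := fun l => by
        show (l ∘ₗ ρ h⁻¹) ∘ₗ ρ h = l
        rw [LinearMap.comp_assoc, ← Module.End.mul_eq_comp, ← map_mul, inv_mul_cancel, map_one]
        rfl
      right_inv := fun l => by
        show (l ∘ₗ ρ h) ∘ₗ ρ h⁻¹ = l
        rw [LinearMap.comp_assoc, ← Module.End.mul_eq_comp, ← map_mul, mul_inv_cancel, map_one]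
        rfl }
  map_one' := by
    ext l n
    simp
  map_mul' h₁ h₂ := by
    ext l n
    simp [mul_inv_rev, map_mul]

theorem dualPerm_apply (ρ : Representation k H N) (h : H) (l : N →ₗ[k] k) :
    dualPerm ρ h l = l ∘ₗ ρ h⁻¹ := rfl

theorem dualPerm_eq_one (ρ : Representation k H N) (h : H) (hh : ρ h = 1) :
    dualPerm ρ h = 1 := by
  ext l n
  have h1 : ρ h⁻¹ = 1 := by
    have h2 : ρ h⁻¹ * ρ h = 1 := by rw [← map_mul, inv_mul_cancel, map_one]
    rw [hh, mul_one] at h2
    exact h2
  rw [dualPerm_apply, h1]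
  rfl

/-- A nonzero invariant functional. -/
theorem exists_invariant_functional [Finite k] (p : ℕ) [Fact p.Prime] [CharP k p]
    [Module.Finite k N] [Nontrivial N] (ρ : Representation k H N) (hρ : ∀ h : H, ∃ j : ℕ, ρ (h ^ p ^ j) = 1) :
    ∃ l : N →ₗ[k] k, l ≠ 0 ∧ ∀ (h : H) (n : N), l (ρ h n) = l n := by
  classical
  have hfinW : Finite (N →ₗ[k] k) := Module.finite_of_finite k
  -- the dual is nontrivial
  obtain ⟨n₀, hn₀⟩ := exists_ne (0 : N)
  have hW : ∃ w : N →ₗ[k] k, w ≠ 0 := by
    by_contra hcon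
    apply hn₀
    rw [← Module.forall_dual_apply_eq_zero_iff k n₀]
    intro f
    have hf : (f : N →ₗ[k] k) = 0 := by
      by_contra hf0
      exact hcon ⟨f, hf0⟩
    rw [hf]
    rfl
  obtain ⟨w, hw⟩ := hW
  -- `p` divides the cardinality of the dual
  have hpw : p • w = 0 := by
    rw [← Nat.cast_smul_eq_nsmul k, CharP.cast_eq_zero k p, zero_smul]
  have hord : addOrderOf w = p := by
    have h1 : addOrderOf w ∣ p := addOrderOf_dvd_of_nsmul_eq_zero hpw
    rcases (Nat.dvd_prime (Fact.out : p.Prime)).1 h1 with h2 | h2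
    · exact absurd (AddMonoid.addOrderOf_eq_one_iff.1 h2) hw
    · exact h2
  have hcard : p ∣ Nat.card (N →ₗ[k] k) := by
    rw [← hord]
    exact addOrderOf_dvd_natCard w
  -- the acting `p`-group
  have hQ : IsPGroup p (dualPerm ρ).range := by
    rintro ⟨q, h, rfl⟩
    obtain ⟨j, hj⟩ := hρ h
    refine ⟨j, Subtype.ext ?_⟩
    show dualPerm ρ h ^ p ^ j = 1
    rw [← map_pow]
    exact dualPerm_eq_one ρ _ hj
  have h0 : (0 : N →ₗ[k] k) ∈ MulAction.fixedPoints (dualPerm ρ).range (N →ₗ[k] k) := by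
    rintro ⟨q, h, rfl⟩
    show dualPerm ρ h 0 = 0
    rw [dualPerm_apply, LinearMap.zero_comp]
  obtain ⟨l, hl, hl0⟩ := hQ.exists_fixed_point_of_prime_dvd_card_of_fixed_point
    (N →ₗ[k] k) hcard h0
  refine ⟨l, fun h => hl0 h.symm, fun h n => ?_⟩
  have h1 := hl ⟨dualPerm ρ h⁻¹, h⁻¹, rfl⟩
  have h2 : dualPerm ρ h⁻¹ l = l := h1
  rw [dualPerm_apply, inv_inv] at h2
  exact LinearMap.congr_fun h2 n

end Fixed

end Fermat.Agent.S55.H4
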