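/-
Program C (S55), package C4, leaf M2, half 1 (helper4): the permutation representation
`k[G ⧸ H]` is isomorphic to the coinduction of the trivial representation of `H` (finite index),
in the form needed for the closure principle: a class of representations closed under retracts
containing the former contains the latter.  Mathlib only.
-/
import Mathlib

set_option autoImplicit false

open CategoryTheory

noncomputable section

namespace Fermat.Agent.S55.H4

section Perm

variable {k : Type} [CommRing k] {G : Type} [Group G] (H : Subgroup G)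

/-- The coefficients of a translate in the permutation representation. -/
theorem ofMulAction_coeff (g : G) (ξ : MonoidAlgebra k (G ⧸ H)) (x : G ⧸ H) :
    (Representation.ofMulAction k G (G ⧸ H) g ξ).coeff x = ξ.coeff (g⁻¹ • x) := by
  show (Finsupp.mapDomain (fun y : G ⧸ H => g • y) ξ.coeff) x = ξ.coeff (g⁻¹ • x)
  exact Finsupp.mapDomain_equiv_apply (f := MulAction.toPerm g) ξ.coeff x

theorem mk_inv_mul_mem (h : H) (g : G) :
    (((H.subtype h * g)⁻¹ : G) : G ⧸ H) = ((g⁻¹ : G) : G ⧸ H) := by
  rw [mul_inv_rev]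
  exact QuotientGroup.mk_mul_of_mem _ (H.inv_mem h.2)

/-- The comparison map `k[G ⧸ H] → coind_H^G k`, as a linear map. -/
def permToCoindLin :
    MonoidAlgebra k (G ⧸ H) →ₗ[k] Representation.coindV H.subtype (Rep.trivial k H k).ρ where
  toFun ξ := ⟨fun g => ξ.coeff ((g⁻¹ : G) : G ⧸ H), fun h g => by
    show ξ.coeff (((H.subtype h * g)⁻¹ : G) : G ⧸ H) = ξ.coeff ((g⁻¹ : G) : G ⧸ H)
    rw [mk_inv_mul_mem]⟩
  map_add' ξ η := by
    apply Subtype.ext
    funext g
    show (ξ + η).coeff ((g⁻¹ : G) : G ⧸ H) = ξ.coeff _ + η.coeff _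
    rw [MonoidAlgebra.coeff_add]
    rfl
  map_smul' c ξ := by
    apply Subtype.ext
    funext g
    show (c • ξ).coeff ((g⁻¹ : G) : G ⧸ H) = c • ξ.coeff _
    rw [MonoidAlgebra.coeff_smul]
    rfl

theorem permToCoindLin_apply (ξ : MonoidAlgebra k (G ⧸ H)) (g : G) :
    (permToCoindLin (k := k) H ξ).1 g = ξ.coeff ((g⁻¹ : G) : G ⧸ H) := rfl

/-- The comparison map `k[G ⧸ H] → coind_H^G k`, as a morphism of representations. -/
def permToCoind :
    Rep.ofMulAction k G (G ⧸ H) ⟶ Rep.coind H.subtype (Rep.trivial k H k) :=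
  Rep.ofHom ⟨permToCoindLin H, fun g => by
    apply LinearMap.ext
    intro ξ
    apply Subtype.ext
    funext a
    show (Representation.ofMulAction k G (G ⧸ H) g ξ).coeff ((a⁻¹ : G) : G ⧸ H)
      = ξ.coeff (((a * g)⁻¹ : G) : G ⧸ H)
    rw [ofMulAction_coeff, mul_inv_rev]
    rfl⟩

theorem permToCoind_apply (ξ : MonoidAlgebra k (G ⧸ H)) (g : G) :
    ((permToCoind (k := k) H).hom ξ).1 g = ξ.coeff ((g⁻¹ : G) : G ⧸ H) := rfl

theorem permToCoind_injective : Function.Injective (permToCoind (k := k) H).hom := by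
  intro ξ η h
  apply MonoidAlgebra.ext
  apply Finsupp.ext
  intro x
  obtain ⟨a, rfl⟩ := QuotientGroup.mk_surjective x
  have h1 := congrFun (congrArg Subtype.val h) a⁻¹
  rw [permToCoind_apply, permToCoind_apply, inv_inv] at h1
  exact h1

theorem permToCoind_surjective [H.FiniteIndex] :
    Function.Surjective (permToCoind (k := k) H).hom := by
  intro f
  haveI : Finite (G ⧸ H) := Subgroup.finite_quotient_of_finiteIndex
  refine ⟨MonoidAlgebra.ofCoeff (Finsupp.equivFunOnFinite.symm
    (fun x : G ⧸ H => f.1 (Quotient.out x)⁻¹)), ?_⟩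
  apply Subtype.ext
  funext g
  rw [permToCoind_apply]
  show f.1 (Quotient.out ((g⁻¹ : G) : G ⧸ H))⁻¹ = f.1 g
  obtain ⟨h, hh⟩ := QuotientGroup.mk_out_eq_mul H g⁻¹
  rw [hh, mul_inv_rev, inv_inv]
  have h1 := f.2 h⁻¹ g
  rw [Rep.trivial_ρ] at h1
  exact h1

instance permToCoind_isIso [H.FiniteIndex] : IsIso (permToCoind (k := k) H) := by
  haveI : Mono (permToCoind (k := k) H) := (Rep.mono_iff_injective _).2 (permToCoind_injective H)
  haveI : Epi (permToCoind (k := k) H) := (Rep.epi_iff_surjective _).2 (permToCoind_surjective H)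
  exact isIso_of_mono_of_epi _

/-- A class of representations closed under retracts and containing `k[G ⧸ H]` contains the
coinduction of the trivial representation. -/
theorem retract_coind_trivial [H.FiniteIndex] (P : Rep.{0} k G → Prop)
    (hPbase : P (Rep.ofMulAction k G (G ⧸ H)))
    (hPretr : ∀ (A B : Rep.{0} k G) (i : A ⟶ B) (r : B ⟶ A), i ≫ r = 𝟙 A → P B → P A) :
    P (Rep.coind H.subtype (Rep.trivial k H k)) :=
  hPretr _ _ (inv (permToCoind (k := k) H)) (permToCoind H) (IsIso.inv_hom_id _) hPbase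

end Perm

end Fermat.Agent.S55.H4
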