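/-
Program C (S55), package C4, leaf M2, half 1 (helper4): a representation `K` of `G` is a retract
of the coinduction of its restriction to a subgroup `H` of finite index invertible in the
coefficient field (averaging over `G ⧸ H`).  Mathlib only.
-/
import Mathlib

set_option autoImplicit false

open CategoryTheory

noncomputable section

namespace Fermat.Agent.S55.H4

section Retract

variable {k : Type} [Field k] {G : Type} [Group G] (H : Subgroup G) (K : Rep.{0} k G)

/-- `m ↦ (g ↦ g m)`, as a linear map into the coinduction of the restriction. -/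
def toCoindLin : K →ₗ[k] Representation.coindV H.subtype (Rep.res H.subtype K).ρ where
  toFun m := ⟨fun g => K.ρ g m, fun h g => by
    show K.ρ (H.subtype h * g) m = K.ρ (H.subtype h) (K.ρ g m)
    rw [map_mul]
    rfl⟩
  map_add' m n := by
    apply Subtype.ext
    funext g
    exact map_add (K.ρ g) m n
  map_smul' c m := by
    apply Subtype.ext
    funext g
    exact map_smul (K.ρ g) c m

theorem toCoindLin_apply (m : K) (g : G) : (toCoindLin H K m).1 g = K.ρ g m := rfl

/-- `m ↦ (g ↦ g m)`, as a morphism of representations. -/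
def toCoind : K ⟶ Rep.coind H.subtype (Rep.res H.subtype K) :=
  Rep.ofHom (ρ := K.ρ) ⟨toCoindLin H K, fun s => by
    apply LinearMap.ext
    intro m
    apply Subtype.ext
    funext g
    show K.ρ g (K.ρ s m) = K.ρ (g * s) m
    rw [map_mul]
    rfl⟩

theorem toCoind_apply (m : K) (g : G) : ((toCoind H K).hom m).1 g = K.ρ g m := rfl

/-- The summand of the averaging map attached to a coset. -/
def avgTerm (x : G ⧸ H) : Representation.coindV H.subtype (Rep.res H.subtype K).ρ →ₗ[k] K :=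
  K.ρ (Quotient.out x) ∘ₗ LinearMap.proj (Quotient.out x)⁻¹ ∘ₗ
    (Representation.coindV H.subtype (Rep.res H.subtype K).ρ).subtype

theorem avgTerm_apply (x : G ⧸ H)
    (f : Representation.coindV H.subtype (Rep.res H.subtype K).ρ) :
    avgTerm H K x f = K.ρ (Quotient.out x) (f.1 (Quotient.out x)⁻¹) := rfl

/-- The summand attached to the coset of `a` may be computed with the representative `a`. -/
theorem avgTerm_mk (a : G) (f : Representation.coindV H.subtype (Rep.res H.subtype K).ρ) :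
    avgTerm H K (a : G ⧸ H) f = K.ρ a (f.1 a⁻¹) := by
  rw [avgTerm_apply]
  obtain ⟨h, hh⟩ := QuotientGroup.mk_out_eq_mul H a
  rw [hh, mul_inv_rev]
  have h1 := f.2 h⁻¹ a⁻¹
  have h2 : H.subtype h⁻¹ * a⁻¹ = (h : G)⁻¹ * a⁻¹ := rfl
  rw [h2] at h1
  rw [h1, map_mul]
  show K.ρ a (K.ρ (h : G) (K.ρ (H.subtype h⁻¹) (f.1 a⁻¹))) = K.ρ a (f.1 a⁻¹)
  have h3 : K.ρ (h : G) (K.ρ (H.subtype h⁻¹) (f.1 a⁻¹)) = f.1 a⁻¹ := by
    have h4 : K.ρ (h : G) * K.ρ (H.subtype h⁻¹) = 1 := by
      rw [← map_mul]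
      have h5 : (h : G) * H.subtype h⁻¹ = 1 := by simp
      rw [h5, map_one]
    exact LinearMap.congr_fun h4 (f.1 a⁻¹)
  rw [h3]

/-- The translate of a summand. -/
theorem avgTerm_smul (s : G) (x : G ⧸ H)
    (f : Representation.coindV H.subtype (Rep.res H.subtype K).ρ) :
    avgTerm H K x ((Rep.coind H.subtype (Rep.res H.subtype K)).ρ s f)
      = K.ρ s (avgTerm H K (s⁻¹ • x) f) := by
  obtain ⟨a, rfl⟩ := QuotientGroup.mk_surjective x
  have h1 : s⁻¹ • (a : G ⧸ H) = ((s⁻¹ * a : G) : G ⧸ H) := rfl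
  rw [h1, avgTerm_mk, avgTerm_mk]
  show K.ρ a (f.1 (a⁻¹ * s)) = K.ρ s (K.ρ (s⁻¹ * a) (f.1 (s⁻¹ * a)⁻¹))
  have h2 : (s⁻¹ * a)⁻¹ = a⁻¹ * s := by rw [mul_inv_rev, inv_inv]
  rw [h2]
  have h3 : K.ρ s (K.ρ (s⁻¹ * a) (f.1 (a⁻¹ * s))) = (K.ρ s * K.ρ (s⁻¹ * a)) (f.1 (a⁻¹ * s)) := rfl
  rw [h3, ← map_mul, mul_inv_cancel_left]

variable [H.FiniteIndex]

/-- The averaging map, as a linear map. -/
def avgLin : Representation.coindV H.subtype (Rep.res H.subtype K).ρ →ₗ[k] K :=
  letI : Fintype (G ⧸ H) := Subgroup.fintypeQuotientOfFiniteIndex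
  ((H.index : k)⁻¹) • ∑ x : G ⧸ H, avgTerm H K x

theorem avgLin_apply (f : Representation.coindV H.subtype (Rep.res H.subtype K).ρ) :
    letI : Fintype (G ⧸ H) := Subgroup.fintypeQuotientOfFiniteIndex
    avgLin H K f = ((H.index : k)⁻¹) • ∑ x : G ⧸ H, avgTerm H K x f := by
  let _ : Fintype (G ⧸ H) := Subgroup.fintypeQuotientOfFiniteIndex
  show (((H.index : k)⁻¹) • ∑ x : G ⧸ H, avgTerm H K x) f = _
  rw [LinearMap.smul_apply, LinearMap.sum_apply]

/-- The averaging map, as a morphism of representations. -/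
def avg : Rep.coind H.subtype (Rep.res H.subtype K) ⟶ K :=
  Rep.ofHom (σ := K.ρ) ⟨avgLin H K, fun s => by
    letI : Fintype (G ⧸ H) := Subgroup.fintypeQuotientOfFiniteIndex
    apply LinearMap.ext
    intro f
    show avgLin H K ((Rep.coind H.subtype (Rep.res H.subtype K)).ρ s f) = K.ρ s (avgLin H K f)
    rw [avgLin_apply, avgLin_apply, map_smul, map_sum]
    congr 1
    rw [← Equiv.sum_comp (MulAction.toPerm s⁻¹ : G ⧸ H ≃ G ⧸ H)
      (fun y => K.ρ s (avgTerm H K y f))]
    refine Finset.sum_congr rfl fun x _ => ?_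
    exact avgTerm_smul H K s x f⟩

theorem avg_apply (f : Representation.coindV H.subtype (Rep.res H.subtype K).ρ) :
    (avg H K).hom f = avgLin H K f := rfl

/-- `K` is a retract of the coinduction of its restriction. -/
theorem toCoind_avg (hidx : (H.index : k) ≠ 0) : toCoind H K ≫ avg H K = 𝟙 K := by
  letI : Fintype (G ⧸ H) := Subgroup.fintypeQuotientOfFiniteIndex
  apply Rep.hom_ext
  apply Representation.IntertwiningMap.ext
  apply LinearMap.ext
  intro m
  show avgLin H K ((toCoind H K).hom m) = m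
  rw [avgLin_apply]
  have h1 : ∀ x : G ⧸ H, avgTerm H K x ((toCoind H K).hom m) = m := by
    intro x
    obtain ⟨a, rfl⟩ := QuotientGroup.mk_surjective x
    rw [avgTerm_mk, toCoind_apply]
    have h2 : K.ρ a (K.ρ a⁻¹ m) = (K.ρ a * K.ρ a⁻¹) m := rfl
    rw [h2, ← map_mul, mul_inv_cancel, map_one]
    rfl
  rw [Finset.sum_congr rfl fun x _ => h1 x, Finset.sum_const, Finset.card_univ,
    ← Nat.card_eq_fintype_card, ← Subgroup.index_eq_card, ← Nat.cast_smul_eq_nsmul k, smul_smul,
    inv_mul_cancel₀ hidx, one_smul]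

end Retract

end Fermat.Agent.S55.H4
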