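/-
Program C (S55), package C4, leaf M2, half 1 (helper4): proof of the closure principle
`Fermat.Agent.S55.H80.ClosureStatement`.

Let `U ≤ H ≤ G`, `U` normal, every element of `H` with a `p`-power in `U`, `[G : H]` finite and
invertible in the finite field `k` of characteristic `p`.  A class `P` of representations of `G`
containing `k[G ⧸ H]`, closed under extensions with `U`-fixed middle term and under retracts,
contains every finite-dimensional representation fixed pointwise by `U`.

Proof: `K` is a retract of the coinduction of its restriction to `H` (averaging); the coinduction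
of a finite-dimensional `U`-trivial representation `N` of `H` lies in `P` by induction on
`dim N`, along an `H`-invariant functional `N → k` (whose kernel has dimension one less), the
coinduction of the trivial representation being `k[G ⧸ H]`.
-/
import Fermat.Agent.S55.H80.CoresSurjSpec
import Fermat.Agent.S55.H4.ClosureCoind
import Fermat.Agent.S55.H4.ClosureFixed
import Fermat.Agent.S55.H4.ClosurePerm
import Fermat.Agent.S55.H4.ClosureRetract

set_option autoImplicit false

open CategoryTheory

noncomputable section

namespace Fermat.Agent.S55.H4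

section Closure

variable {G : Type} [Group G] {k : Type} [Field k]

/-- The coinduction of a representation on a subsingleton lies in every class closed under
retracts containing some object. -/
theorem closure_zero (H : Subgroup G) (P : Rep.{0} k G → Prop) (B : Rep.{0} k G) (hB : P B)
    (hPretr : ∀ (A B : Rep.{0} k G) (i : A ⟶ B) (r : B ⟶ A), i ≫ r = 𝟙 A → P B → P A)
    (N : Rep.{0} k H) [Subsingleton N] : P (Rep.coind H.subtype N) := by
  refine hPretr _ B 0 0 ?_ hB
  apply Rep.hom_ext
  apply Representation.IntertwiningMap.ext
  apply LinearMap.ext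
  intro x
  apply Subtype.ext
  funext g
  exact Subsingleton.elim _ _

/-- The kernel of an invariant functional is a subrepresentation. -/
theorem ker_le_comap {H : Type} [Group H] (N : Rep.{0} k H) (l : N →ₗ[k] k)
    (hl : ∀ (h : H) (n : N), l (N.ρ h n) = l n) (h : H) :
    LinearMap.ker l ≤ Submodule.comap (N.ρ h) (LinearMap.ker l) := by
  intro n hn
  rw [Submodule.mem_comap, LinearMap.mem_ker, hl]
  exact LinearMap.mem_ker.1 hn

/-- An invariant functional, as a morphism to the trivial representation. -/
def functionalHom {H : Type} [Group H] (N : Rep.{0} k H) (l : N →ₗ[k] k)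
    (hl : ∀ (h : H) (n : N), l (N.ρ h n) = l n) : N ⟶ Rep.trivial k H k :=
  Rep.ofHom (ρ := N.ρ) ⟨l, fun h => by
    apply LinearMap.ext
    intro n
    exact hl h n⟩

theorem functionalHom_apply {H : Type} [Group H] (N : Rep.{0} k H) (l : N →ₗ[k] k)
    (hl : ∀ (h : H) (n : N), l (N.ρ h n) = l n) (n : N) :
    (functionalHom N l hl).hom n = l n := rfl

/-- The induction: coinductions of finite-dimensional `U`-trivial representations of `H`. -/
theorem closure_coind [Finite k] (p : ℕ) [Fact p.Prime] [CharP k p] (U H : Subgroup G)
    (hU : U.Normal) (hUH : U ≤ H) [H.FiniteIndex] (hp : ∀ h ∈ H, ∃ j : ℕ, h ^ p ^ j ∈ U)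
    (P : Rep.{0} k G → Prop) (hPbase : P (Rep.ofMulAction k G (G ⧸ H)))
    (hPext : ∀ X : ShortComplex (Rep.{0} k G), X.ShortExact →
      (∀ m : X.X₂, ∀ s ∈ U, X.X₂.ρ s m = m) → P X.X₁ → P X.X₃ → P X.X₂)
    (hPretr : ∀ (A B : Rep.{0} k G) (i : A ⟶ B) (r : B ⟶ A), i ≫ r = 𝟙 A → P B → P A) :
    ∀ (d : ℕ) (N : Rep.{0} k H), Module.Finite k N → Module.finrank k N = d →
      (∀ u : H, (u : G) ∈ U → ∀ n : N, N.ρ u n = n) → P (Rep.coind H.subtype N) := by
  intro d
  induction d with
  | zero =>
    intro N hfin hd hN
    haveI : Subsingleton N := Module.finrank_zero_iff.1 hd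
    exact closure_zero H P _ hPbase hPretr N
  | succ d ih =>
    intro N hfin hd hN
    haveI : Nontrivial N := Module.nontrivial_of_finrank_pos (R := k) (by omega)
    -- the invariant functional
    have hρ : ∀ h : H, ∃ j : ℕ, N.ρ (h ^ p ^ j) = 1 := by
      intro h
      obtain ⟨j, hj⟩ := hp h.1 h.2
      refine ⟨j, ?_⟩
      apply LinearMap.ext
      intro n
      exact hN (h ^ p ^ j) (by rw [Subgroup.coe_pow]; exact hj) n
    obtain ⟨l, hl0, hl⟩ := exists_invariant_functional p N.ρ hρ
    have hsurj : Function.Surjective l := LinearMap.surjective hl0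
    -- the kernel
    have hfin0 : Module.Finite k (Rep.subrepresentation N (LinearMap.ker l) (ker_le_comap N l hl)) :=
      inferInstanceAs (Module.Finite k (LinearMap.ker l))
    have hd0 : Module.finrank k (Rep.subrepresentation N (LinearMap.ker l) (ker_le_comap N l hl))
        = d := by
      have h1 := LinearMap.finrank_range_add_finrank_ker l
      rw [LinearMap.range_eq_top.2 hsurj, finrank_top, Module.finrank_self, hd] at h1
      show Module.finrank k (LinearMap.ker l) = d
      omega
    have hN0 : ∀ u : H, (u : G) ∈ U →
        ∀ n : Rep.subrepresentation N (LinearMap.ker l) (ker_le_comap N l hl),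
          (Rep.subrepresentation N (LinearMap.ker l) (ker_le_comap N l hl)).ρ u n = n := by
      intro u hu n
      apply Subtype.ext
      exact hN u hu n.1
    have hP0 := ih _ hfin0 hd0 hN0
    have hPk : P (Rep.coind H.subtype (Rep.trivial k H k)) :=
      retract_coind_trivial H P hPbase hPretr
    -- the short exact sequence
    have hex := coind_shortExact H (Rep.subtype N (LinearMap.ker l) (ker_le_comap N l hl))
      (functionalHom N l hl) (fun a b hab => Subtype.ext hab)
      (fun a => LinearMap.mem_ker.1 a.2)
      (fun b hb => ⟨⟨b, LinearMap.mem_ker.2 hb⟩, rfl⟩) hsurj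
    exact hPext _ hex (fun m s hs => coind_fixed H U hU hUH N hN m s hs) hP0 hPk

end Closure

/-- **The closure principle** (`Fermat.Agent.S55.H80.ClosureStatement`). -/
theorem closure : Fermat.Agent.S55.H80.ClosureStatement := by
  intro G _ k _ _ p _ _ U H hU hUH hfin hp hidx P hPbase hPext hPretr K hK hKU
  haveI : H.FiniteIndex := hfin
  have hfinN : Module.Finite k (Rep.res H.subtype K) := hK
  have hN : ∀ u : H, (u : G) ∈ U → ∀ n : Rep.res H.subtype K,
      (Rep.res H.subtype K).ρ u n = n := fun u hu n => hKU n (u : G) hu
  have h1 := closure_coind p U H hU hUH hp P hPbase hPext hPretr _ (Rep.res H.subtype K) hfinN rfl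
    hN
  exact hPretr K _ (toCoind H K) (avg H K) (toCoind_avg H K hidx) h1

end Fermat.Agent.S55.H4
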