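/-
Program C (S55), package C9b, leaf (LC-TORS): the level-constant cohomology `Hlc D M (n + 1)` of
helper49's model is torsion as soon as the level subgroups have finite index.
Prover: helper4.  Mathlib + landed H49/{LevelDefs, HomologyApi} only.

Route: explicit homotopy "sum over the last variable".  For a level-constant `(n+1)`-cocycle `f`
of level `U` (normal of finite index `m`), the cochain `avgLast U M f g = ∑_{q : G ⧸ U} f (g, q)`
is level-constant of the same level and `d (avgLast U M f) = ((-1)^(n+1) * m) • f`.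
-/
import Fermat.Agent.S55.H49.LevelDefs
import Fermat.Agent.S55.H49.HomologyApi

set_option autoImplicit false

noncomputable section

namespace Fermat.Agent.S55.H4

open CategoryTheory groupCohomology Fermat.Agent.S55.H49

section FinLemmas

variable {α : Type} {n : ℕ}

/-- Contracting at the last place forgets the last entry of a `snoc`. -/
theorem contractNth_last_snoc (op : α → α → α) (g : Fin (n + 1) → α) (x : α) :
    Fin.contractNth (Fin.last (n + 1)) op (Fin.snoc g x : Fin (n + 2) → α) = g := by
  funext i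
  rw [Fin.contractNth_apply_of_lt _ _ _ _ (by rw [Fin.val_last]; exact i.isLt)]
  exact Fin.snoc_castSucc (α := fun _ => α) x g i

/-- Contracting a `snoc` at an earlier place. -/
theorem contractNth_castSucc_snoc (op : α → α → α) (j : Fin (n + 1)) (g : Fin (n + 1) → α)
    (x : α) :
    Fin.contractNth j.castSucc op (Fin.snoc g x : Fin (n + 2) → α) =
      Fin.snoc (Fin.contractNth j op g)
        (if j = Fin.last n then op (g (Fin.last n)) x else x) := by
  funext i
  refine Fin.lastCases ?_ (fun i' => ?_) i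
  · -- the last entry
    rw [Fin.snoc_last]
    by_cases hj : j = Fin.last n
    · rw [if_pos hj, Fin.contractNth_apply_of_eq _ _ _ _ (by rw [hj]; rfl)]
      rw [Fin.snoc_castSucc (α := fun _ => α), Fin.succ_last]
      rw [Fin.snoc_last (α := fun _ => α)]
    · rw [if_neg hj, Fin.contractNth_apply_of_gt _ _ _ _ (by
        have : (j : ℕ) < n := lt_of_le_of_ne (Nat.lt_succ_iff.mp j.isLt)
          (fun h => hj (Fin.ext (by simp [h])))
        simpa using this)]
      rw [Fin.succ_last]
      exact Fin.snoc_last (α := fun _ => α) x g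
  · rw [Fin.snoc_castSucc]
    rcases lt_trichotomy (i' : ℕ) (j : ℕ) with h | h | h
    · rw [Fin.contractNth_apply_of_lt _ _ _ _ (by simpa using h),
        Fin.contractNth_apply_of_lt _ _ _ _ h]
      exact Fin.snoc_castSucc (α := fun _ => α) x g _
    · rw [Fin.contractNth_apply_of_eq _ _ _ _ (by simpa using h),
        Fin.contractNth_apply_of_eq _ _ _ _ h]
      rw [Fin.snoc_castSucc (α := fun _ => α), Fin.succ_castSucc,
        Fin.snoc_castSucc (α := fun _ => α)]
    · rw [Fin.contractNth_apply_of_gt _ _ _ _ (by simpa using h),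
        Fin.contractNth_apply_of_gt _ _ _ _ h]
      rw [Fin.succ_castSucc]
      exact Fin.snoc_castSucc (α := fun _ => α) x g _

/-- The tail of a `snoc`. -/
theorem succ_snoc (g : Fin (n + 1) → α) (x : α) :
    (fun i : Fin (n + 1) => (Fin.snoc g x : Fin (n + 2) → α) i.succ) =
      Fin.snoc (fun i : Fin n => g i.succ) x := by
  funext i
  refine Fin.lastCases ?_ (fun i' => ?_) i
  · rw [Fin.succ_last, Fin.snoc_last, Fin.snoc_last]
  · rw [Fin.succ_castSucc, Fin.snoc_castSucc, Fin.snoc_castSucc]

/-- Contracting at the last place is `init`. -/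
theorem contractNth_last (op : α → α → α) (g : Fin (n + 1) → α) :
    Fin.contractNth (Fin.last n) op g = fun i : Fin n => g i.castSucc := by
  funext i
  exact Fin.contractNth_apply_of_lt _ _ _ _ (by simp [Fin.val_last])

/-- The first entry of a `snoc`. -/
theorem snoc_zero' (g : Fin (n + 1) → α) (x : α) :
    (Fin.snoc g x : Fin (n + 2) → α) 0 = g 0 := by
  rw [← Fin.castSucc_zero]
  exact Fin.snoc_castSucc (α := fun _ => α) x g 0

end FinLemmas

section Avg

variable {G : Type} [Group G] {k : Type} [CommRing k]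

/-- Sum over the last variable, over representatives of `G ⧸ U`. -/
def avgLast (U : Subgroup G) [Fintype (G ⧸ U)] (M : Rep.{0} k G) {n : ℕ}
    (f : (Fin (n + 1) → G) → M) : (Fin n → G) → M :=
  fun g => ∑ q : G ⧸ U, f (Fin.snoc g (Quotient.out q))

theorem isLCAt_avgLast {U : Subgroup G} [Fintype (G ⧸ U)] {M : Rep.{0} k G} {n : ℕ}
    {f : (Fin (n + 1) → G) → M} (hf : IsLCAt U M f) : IsLCAt U M (avgLast U M f) := by
  refine ⟨fun g s hs => ?_, fun g s hs => ?_⟩
  · unfold avgLast
    refine Finset.sum_congr rfl fun q _ => ?_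
    have e : (Fin.snoc (g * s) (Quotient.out q) : Fin (n + 1) → G) =
        Fin.snoc g (Quotient.out q) * Fin.snoc s 1 := by
      funext i
      refine Fin.lastCases ?_ (fun i' => ?_) i
      · simp
      · simp
    rw [e]
    refine hf.1 _ _ fun i => ?_
    refine Fin.lastCases ?_ (fun i' => ?_) i
    · rw [Fin.snoc_last]
      exact U.one_mem
    · rw [Fin.snoc_castSucc]
      exact hs i'
  · unfold avgLast
    rw [map_sum]
    exact Finset.sum_congr rfl fun q _ => hf.2 _ _ hs

/-- Reindexing the sum over the last variable by a left translation. -/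
theorem sum_snoc_mul {U : Subgroup G} [Fintype (G ⧸ U)] {M : Rep.{0} k G} {n : ℕ}
    {f : (Fin (n + 1) → G) → M} (hf : IsLCAt U M f) (h : Fin n → G) (a : G) :
    ∑ q : G ⧸ U, f (Fin.snoc h (a * Quotient.out q)) =
      ∑ q : G ⧸ U, f (Fin.snoc h (Quotient.out q)) := by
  have e1 : ∀ q : G ⧸ U, f (Fin.snoc h (a * Quotient.out q)) =
      f (Fin.snoc h (Quotient.out (a • q))) := by
    intro q
    refine hf.congr fun i => ?_
    refine Fin.lastCases ?_ (fun i' => ?_) i
    · rw [Fin.snoc_last, Fin.snoc_last, ← QuotientGroup.eq, QuotientGroup.out_eq']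
      have h2 : ((a * Quotient.out q : G) : G ⧸ U) = a • ((Quotient.out q : G) : G ⧸ U) := rfl
      rw [h2, QuotientGroup.out_eq']
    · rw [Fin.snoc_castSucc, Fin.snoc_castSucc, inv_mul_cancel]
      exact U.one_mem
  rw [Finset.sum_congr rfl fun q _ => e1 q]
  exact Equiv.sum_comp (MulAction.toPerm a : Equiv.Perm (G ⧸ U))
    fun q => f (Fin.snoc h (Quotient.out q))

/-- The differential of a cochain at a `snoc`. -/
theorem d_apply_snoc (M : Rep.{0} k G) {n : ℕ} (f : (Fin (n + 1) → G) → M)
    (g : Fin (n + 1) → G) (x : G) :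
    (inhomogeneousCochains.d M (n + 1)).hom f (Fin.snoc g x) =
      M.ρ (g 0) (f (Fin.snoc (fun i : Fin n => g i.succ) x)) +
        (∑ j : Fin (n + 1), (-1 : k) ^ ((j : ℕ) + 1) •
          f (Fin.snoc (Fin.contractNth j (· * ·) g)
            (if j = Fin.last n then g (Fin.last n) * x else x)) +
        (-1 : k) ^ (n + 2) • f g) := by
  rw [inhomogeneousCochains.d_hom_apply, Fin.sum_univ_castSucc, snoc_zero', succ_snoc,
    contractNth_last_snoc]
  simp only [contractNth_castSucc_snoc, Fin.val_castSucc, Fin.val_last]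

/-- The homotopy identity: `d (avgLast f) = ((-1)^(n+1) * [G : U]) • f` for a cocycle `f`
which is constant modulo `U`. -/
theorem d_avgLast {U : Subgroup G} [Fintype (G ⧸ U)] {M : Rep.{0} k G} {n : ℕ}
    {f : (Fin (n + 1) → G) → M} (hf : IsLCAt U M f)
    (hd : (inhomogeneousCochains.d M (n + 1)).hom f = 0) :
    (inhomogeneousCochains.d M n).hom (avgLast U M f) =
      ((-1 : k) ^ (n + 1) * (Fintype.card (G ⧸ U) : k)) • f := by
  funext g
  have h1 : ∑ q : G ⧸ U, (M.ρ (g 0) (f (Fin.snoc (fun i : Fin n => g i.succ) (Quotient.out q))) +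
        (∑ j : Fin (n + 1), (-1 : k) ^ ((j : ℕ) + 1) •
          f (Fin.snoc (Fin.contractNth j (· * ·) g)
            (if j = Fin.last n then g (Fin.last n) * Quotient.out q else Quotient.out q)) +
        (-1 : k) ^ (n + 2) • f g)) = 0 :=
    Finset.sum_eq_zero fun q _ => by
      rw [← d_apply_snoc, hd]
      rfl
  rw [Finset.sum_add_distrib, Finset.sum_add_distrib, Finset.sum_comm] at h1
  have h2 : ∀ j : Fin (n + 1),
      ∑ q : G ⧸ U, (-1 : k) ^ ((j : ℕ) + 1) •
          f (Fin.snoc (Fin.contractNth j (· * ·) g)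
            (if j = Fin.last n then g (Fin.last n) * Quotient.out q else Quotient.out q)) =
        (-1 : k) ^ ((j : ℕ) + 1) • avgLast U M f (Fin.contractNth j (· * ·) g) := by
    intro j
    rw [← Finset.smul_sum]
    congr 1
    by_cases hj : j = Fin.last n
    · simp only [if_pos hj]
      exact sum_snoc_mul hf _ _
    · simp only [if_neg hj]
      rfl
  rw [Finset.sum_congr rfl fun j _ => h2 j, ← map_sum, Finset.sum_const, Finset.card_univ] at h1
  rw [inhomogeneousCochains.d_hom_apply]
  have h3 : M.ρ (g 0) (avgLast U M f fun i => g i.succ) +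
      ∑ j : Fin (n + 1), (-1 : k) ^ ((j : ℕ) + 1) • avgLast U M f (Fin.contractNth j (· * ·) g) =
      -(Fintype.card (G ⧸ U) • ((-1 : k) ^ (n + 2) • f g)) := by
    rw [← add_assoc] at h1
    exact eq_neg_of_add_eq_zero_left h1
  rw [h3, Pi.smul_apply, ← Nat.cast_smul_eq_nsmul k, smul_smul, ← neg_smul]
  congr 1
  ring

end Avg

section Tors

variable {G : Type} [Group G] {k : Type} [CommRing k]

/-- Cochain form of (LC-TORS): a level-constant cocycle of positive degree, constant modulo a
normal subgroup `U` of finite index, becomes a coboundary of a level-constant cochain of the same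
level after multiplication by `[G : U]`. -/
theorem card_smul_eq_d {U : Subgroup G} [Fintype (G ⧸ U)] {M : Rep.{0} k G} {n : ℕ}
    {f : (Fin (n + 1) → G) → M} (hf : IsLCAt U M f)
    (hd : (inhomogeneousCochains.d M (n + 1)).hom f = 0) :
    (inhomogeneousCochains.d M n).hom ((-1 : k) ^ (n + 1) • avgLast U M f) =
      Fintype.card (G ⧸ U) • f := by
  rw [map_smul, d_avgLast hf hd, smul_smul, ← mul_assoc, ← pow_add, ← two_mul, pow_mul]
  simp [Nat.cast_smul_eq_nsmul]

/-- (LC-TORS) for the homology of `lcComplex`. -/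
theorem homology_lc_torsion (D : LevelDatum G) (hfin : ∀ F, D.Lev F → (D.sub F).FiniteIndex)
    (M : Rep.{0} k G) (n : ℕ) (x : (lcComplex D M).homology (n + 1)) :
    ∃ m : ℕ, 0 < m ∧ m • x = 0 := by
  classical
  obtain ⟨z, rfl⟩ := cls_surjective (lcComplex D M) (n + 1) x
  have hz0 : ((lcComplex D M).d (n + 1) (n + 1 + 1)).hom z.1 = 0 := z.2
  let f : lcCochains D M (n + 1) := z.1
  have hz1 : lcD D M (n + 1) f = 0 := by
    simp only [lcComplex, CochainComplex.of_d] at hz0
    exact hz0
  have hz : (inhomogeneousCochains.d M (n + 1)).hom (f : (Fin (n + 1) → G) → M) = 0 := by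
    have := congrArg Subtype.val hz1
    rwa [lcD_coe] at this
  obtain ⟨F, hF, hN, hlc⟩ := f.2
  have := hfin F hF
  let _ : Fintype (G ⧸ D.sub F) := Fintype.ofFinite _
  refine ⟨Fintype.card (G ⧸ D.sub F), Fintype.card_pos, ?_⟩
  rw [← map_nsmul, cls_eq_zero_iff]
  let y : lcCochains D M n :=
    ⟨(-1 : k) ^ (n + 1) • avgLast (D.sub F) M (f : (Fin (n + 1) → G) → M),
      (lcCochains D M n).smul_mem _ ⟨F, hF, hN, isLCAt_avgLast hlc⟩⟩
  refine ⟨y, ?_⟩
  have hy : lcD D M n y = Fintype.card (G ⧸ D.sub F) • f := by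
    apply Subtype.ext
    rw [lcD_coe]
    exact card_smul_eq_d hlc hz
  simp only [lcComplex, CochainComplex.of_d]
  exact hy

/-- (LC-TORS): `Hlc D M (n + 1)` is torsion when the level subgroups have finite index. -/
theorem hlc_torsion (D : LevelDatum G) (hfin : ∀ F, D.Lev F → (D.sub F).FiniteIndex)
    (M : Rep.{0} k G) (n : ℕ) (x : Hlc D M (n + 1)) : ∃ m : ℕ, 0 < m ∧ m • x = 0 :=
  homology_lc_torsion D hfin M n x

end Tors

section Instances

/-- The fixing subgroup of a finite extension of `ℚ` has finite index in `Gal(ℚ̄/ℚ)`. -/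
theorem finiteIndex_fixingSubgroup (F : IntermediateField ℚ (AlgebraicClosure ℚ))
    [FiniteDimensional ℚ F] : (F.fixingSubgroup).FiniteIndex := by
  classical
  have hfin : Finite (GQ ⧸ F.fixingSubgroup) := by
    refine Finite.of_injective
      (fun q : GQ ⧸ F.fixingSubgroup => ((Quotient.out q : GQ) : AlgebraicClosure ℚ →ₐ[ℚ]
        AlgebraicClosure ℚ).comp F.val) ?_
    intro q q' h
    rw [← QuotientGroup.out_eq' q, ← QuotientGroup.out_eq' q', QuotientGroup.eq,
      IntermediateField.mem_fixingSubgroup_iff]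
    intro x hx
    have h1 : (Quotient.out q : GQ) x = (Quotient.out q' : GQ) x :=
      DFunLike.congr_fun h ⟨x, hx⟩
    rw [AlgEquiv.mul_apply, ← h1]
    exact (Quotient.out q : GQ).symm_apply_apply x
  exact Subgroup.finiteIndex_of_finite_quotient

variable {G : Type} [Group G]

/-- The subgroup attached to a finite level has finite index. -/
theorem finiteIndex_sub (D : LevelDatum G) (F : IntermediateField ℚ (AlgebraicClosure ℚ))
    [FiniteDimensional ℚ F] : (D.sub F).FiniteIndex := by
  have := finiteIndex_fixingSubgroup F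
  refine ⟨?_⟩
  unfold LevelDatum.sub
  rw [Subgroup.index_comap]
  exact Subgroup.FiniteIndex.index_ne_zero

theorem finiteIndex_globalDatum (S : Finset Nat.Primes)
    (F : IntermediateField ℚ (AlgebraicClosure ℚ)) (hF : (globalDatum S).Lev F) :
    ((globalDatum S).sub F).FiniteIndex := by
  have : FiniteDimensional ℚ F := hF.1
  exact finiteIndex_sub _ F

theorem finiteIndex_localDatum {H : Type} [Group H] (f : H →* GQ)
    (F : IntermediateField ℚ (AlgebraicClosure ℚ)) (hF : (localDatum f).Lev F) :
    ((localDatum f).sub F).FiniteIndex := by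
  have : FiniteDimensional ℚ F := hF
  exact finiteIndex_sub _ F

variable {k : Type} [CommRing k]

/-- (LC-TORS) in the shape `1 ≤ n`. -/
theorem hlc_torsion_of_pos (D : LevelDatum G) (hfin : ∀ F, D.Lev F → (D.sub F).FiniteIndex)
    (M : Rep.{0} k G) (n : ℕ) (hn : 1 ≤ n) (x : Hlc D M n) : ∃ m : ℕ, 0 < m ∧ m • x = 0 := by
  obtain ⟨n', rfl⟩ := Nat.exists_eq_add_of_le' hn
  exact hlc_torsion D hfin M n' x

/-- (LC-TORS) for any level datum all of whose levels are finite extensions of `ℚ`
(e.g. a datum pulled back from `globalDatum S` along a group homomorphism). -/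
theorem hlc_torsion_of_finiteDimensional (D : LevelDatum G)
    (hD : ∀ F, D.Lev F → FiniteDimensional ℚ F) (M : Rep.{0} k G) (n : ℕ) (hn : 1 ≤ n)
    (x : Hlc D M n) : ∃ m : ℕ, 0 < m ∧ m • x = 0 :=
  hlc_torsion_of_pos D (fun F hF => by
    have := hD F hF
    exact finiteIndex_sub D F) M n hn x

/-- `Hⁿ⁺¹(G_S, M)` (level-constant model) is torsion. -/
theorem hS_torsion (S : Finset Nat.Primes) (M : Rep.{0} k GQ) (n : ℕ) (x : HS S M (n + 1)) :
    ∃ m : ℕ, 0 < m ∧ m • x = 0 :=
  hlc_torsion (globalDatum S) (finiteIndex_globalDatum S) M n x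

/-- The level-constant cohomology of a local datum is torsion in positive degrees. -/
theorem hlc_localDatum_torsion {H : Type} [Group H] (f : H →* GQ) (M : Rep.{0} k H) (n : ℕ)
    (x : Hlc (localDatum f) M (n + 1)) : ∃ m : ℕ, 0 < m ∧ m • x = 0 :=
  hlc_torsion (localDatum f) (finiteIndex_localDatum f) M n x

end Instances

end Fermat.Agent.S55.H4
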